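import Mathlib
import Fermat.Prelude.Def_ModularCurve_ReductionModL
import Fermat.Agent.S24.DegreeAlg

/-!
# PROJECT H (S18), block B: common vocabulary

* `jk k N : ↥(modularFunctionFieldFullC k N)` : the function `J = j(q)` of the function field over
  an arbitrary field `k` (`coe_jk`);
* `coe_jgen_eq` : the function `jgen N` of `S24.DegreeAlg` has `q`-expansion `jqModC ℚ̄`;
* `coeffMap` of constants and of `jqModC` (`coeffMap_C`, prelude `coeffMap_jqModC`).
-/

set_option autoImplicit false

noncomputable section

namespace Fermat.Agent.S18.B.Basic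

open ModularCurve HahnSeries

local notation "Kb" => AlgebraicClosure ℚ

/-- The function `J = j(q)` of the function field of `X₀(N)` over a field `k`. -/
def jk (k : Type*) [Field k] (N : ℕ) [NeZero N] : ↥(modularFunctionFieldFullC k N) :=
  ⟨jqModC k, jqModC_mem_full k N⟩

@[simp]
theorem coe_jk (k : Type*) [Field k] (N : ℕ) [NeZero N] :
    ((jk k N : ↥(modularFunctionFieldFullC k N)) : LaurentSeries k) = jqModC k := rfl

/-- `coeffEmb` of the rational `j`-series is the `j`-series over `L`. -/
theorem coeffEmb_jq (L : Type*) [Field L] [Algebra ℚ L] : coeffEmb L jq = jqModC L := by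
  rw [← jqModC_rat, coeffEmb, coeffMap_jqModC]

/-- The `q`-expansion of `jgen N`. -/
theorem coe_jgen_eq (N : ℕ) [NeZero N] :
    ((Fermat.Agent.S24.DegreeAlg.jgen N : ↥(modularFunctionFieldBar N)) : LaurentSeries Kb)
      = jqModC Kb := by
  rw [Fermat.Agent.S24.DegreeAlg.coe_jgen, coeffEmb_jq]

theorem coeffMap_C {R S : Type*} [CommRing R] [CommRing S] (f : R →+* S) (c : R) :
    coeffMap f (HahnSeries.C c : LaurentSeries R) = HahnSeries.C (f c) := by
  show coeffMap f (HahnSeries.single (0 : ℤ) c) = HahnSeries.single (0 : ℤ) (f c)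
  rw [coeffMap_single]

theorem algebraMap_eq_C (L : Type*) [Field L] (c : L) :
    algebraMap L (LaurentSeries L) c = HahnSeries.C c := by
  rw [algebraMap_laurentSeries_eq_single]
  rfl

end Fermat.Agent.S18.B.Basic
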