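/-
PROJECT H (S18), slice H-B4 (helper13): basic facts on `F_k = k(J(q^d) : d ∣ N) ⊆ k((q))`
(`ModularCurve.modularFunctionFieldFullC k N`) over an ARBITRARY field `k`:

* `jk k N : F_k` (the series `J = jqModC k`), `transcendental_jk`;
* `jdk k N d : F_k` (`d ∣ N`, the series `J(q^d)`), `adjoin_range_jdk_eq_top`;
* `exists_rel` / `isIntegral_qExpand_closure` : `J(q^d)` is integral over `ℤ[J]` inside `k((q))`
  (transport of the integer modular equations of `S28/ModPolyPrime` along `ℤ → k`, then the prime
  chain of `S28/IntegralChain`);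
* `isIntegral_jdk_closure`, `isIntegral_jdk_adjoin`, `isIntegral_jdk` : the same inside `F_k`, over
  `Subring.closure {jk}`, `Algebra.adjoin k {jk}` and `k⟮jk⟯`;
* `finiteDimensional_full : FiniteDimensional k⟮jk k N⟯ F_k`, `isFF : S24.FF.IsFF k (jk k N)`;
* `psi_le_finrank` : Igusa's bound `ψ(N) ≤ [F_k : k(J)]` for `k` algebraically closed with
  `(N : k) ≠ 0` (from `S28/IgusaDegree`).
-/
import Mathlib
import Fermat.Prelude.Def_ModularCurve_X0ModL
import Fermat.Agent.S24.FF
import Fermat.Agent.S28.IntegralChain
import Fermat.Agent.S28.ModPolyPrime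
import Fermat.Agent.S28.IgusaDegree
import Fermat.Agent.S28.ThetaAdjoin

set_option autoImplicit false
set_option linter.unusedSectionVars false
set_option linter.style.haveILetI false

noncomputable section

namespace Fermat.Agent.S18.B.FkBasics

open ModularCurve IntermediateField Fermat.Agent.S28.IntegralChain

section Generic

variable {K F : Type*} [Field K] [Field F] [Algebra K F]

/-- If `F = K(g_i)` with finitely many `g_i`, all integral over `K(x)`, then `[F : K(x)] < ∞`. -/
theorem finiteDimensional_of_generators {ι : Type*} [Finite ι] (g : ι → F)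
    (hg : IntermediateField.adjoin K (Set.range g) = ⊤) (x : F)
    (hint : ∀ i, IsIntegral K⟮x⟯ (g i)) : FiniteDimensional K⟮x⟯ F := by
  have htop : IntermediateField.adjoin K⟮x⟯ (Set.range g) = ⊤ := by
    rw [← IntermediateField.restrictScalars_eq_top_iff (K := K),
      IntermediateField.adjoin_adjoin_left, eq_top_iff, ← hg]
    exact IntermediateField.adjoin.mono K _ _ Set.subset_union_right
  have : Finite (Set.range g) := (Set.finite_range g).to_subtype
  have h1 := IntermediateField.finiteDimensional_adjoin (K := K⟮x⟯) (S := Set.range g)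
    (fun y hy => by obtain ⟨i, rfl⟩ := hy; exact hint i)
  rw [htop] at h1
  exact Module.Finite.equiv (IntermediateField.topEquiv (F := K⟮x⟯) (E := F)).toLinearEquiv

/-- A family of `E ⊆ L` that is linearly independent over `K(x) ⊆ L` bounds `[E : K(x)]` from
below (`x ∈ E`, the degree computed inside `E`). -/
theorem le_finrank_of_linearIndependent_coe {L : Type*} [Field L] [Algebra K L]
    (E : IntermediateField K L) (x : ↥E) [FiniteDimensional K⟮x⟯ ↥E] {n : ℕ} (f : Fin n → L)
    (hf : ∀ i, f i ∈ E)
    (hli : LinearIndependent ↥(IntermediateField.adjoin K {(x : L)}) f) :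
    n ≤ Module.finrank K⟮x⟯ ↥E := by
  have hmem : ∀ c : K⟮x⟯, ((c : ↥E) : L) ∈ IntermediateField.adjoin K {(x : L)} := by
    intro c
    have h1 : (K⟮x⟯).map E.val = IntermediateField.adjoin K {(x : L)} := by
      rw [IntermediateField.adjoin_map, Set.image_singleton]
      rfl
    rw [← h1]
    exact ⟨(c : ↥E), c.2, rfl⟩
  have hli' : LinearIndependent K⟮x⟯ (fun i => (⟨f i, hf i⟩ : ↥E)) := by
    rw [Fintype.linearIndependent_iff]
    intro g hg i
    have h2 : ∑ i, (⟨((g i : ↥E) : L), hmem (g i)⟩ :
        ↥(IntermediateField.adjoin K {(x : L)})) • f i = 0 := by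
      have h3 := congrArg (fun z : ↥E => (z : L)) hg
      simp only [AddSubmonoidClass.coe_finsetSum, ZeroMemClass.coe_zero] at h3
      rw [← h3]
      refine Finset.sum_congr rfl fun i _ => ?_
      rfl
    have h4 := Fintype.linearIndependent_iff.mp hli _ h2 i
    have h5 : ((g i : ↥E) : L) = 0 := congrArg Subtype.val h4
    apply Subtype.ext
    apply Subtype.ext
    exact h5
  have := hli'.fintype_card_le_finrank
  simpa using this

end Generic

variable (k : Type*) [Field k] (N : ℕ) [NeZero N]

/-! ### The generators -/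

/-- `J` as an element of `F_k`. -/
def jk : ↥(modularFunctionFieldFullC k N) := ⟨jqModC k, jqModC_mem_full k N⟩

@[simp] theorem coe_jk : ((jk k N : ↥(modularFunctionFieldFullC k N)) : LaurentSeries k) = jqModC k :=
  rfl

/-- `J(q^d)`, `d ∣ N`, as an element of `F_k`. -/
def jdk (d : {d : ℕ // d ∣ N}) : ↥(modularFunctionFieldFullC k N) :=
  haveI : NeZero d.1 := Fermat.Agent.S24.DegreeAlg.neZero_of_dvd d.2
  ⟨qExpand k d.1 (jqModC k), jqModCd_mem_full k N d.2⟩

theorem coe_jdk (d : ℕ) [NeZero d] (hd : d ∣ N) :
    ((jdk k N ⟨d, hd⟩ : ↥(modularFunctionFieldFullC k N)) : LaurentSeries k) =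
      qExpand k d (jqModC k) := rfl

theorem jdk_one : jdk k N ⟨1, one_dvd N⟩ = jk k N :=
  Subtype.ext (by rw [coe_jdk, qExpand_one_apply]; rfl)

theorem range_coe_jdk :
    Set.range (fun d : {d : ℕ // d ∣ N} =>
      ((jdk k N d : ↥(modularFunctionFieldFullC k N)) : LaurentSeries k)) =
      divisorExpansionsC k N := by
  ext x
  constructor
  · rintro ⟨d, rfl⟩
    have : NeZero d.1 := Fermat.Agent.S24.DegreeAlg.neZero_of_dvd d.2
    exact ⟨d.1, this, d.2, rfl⟩
  · rintro ⟨d, hne, hd, rfl⟩
    exact ⟨⟨d, hd⟩, rfl⟩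

/-- The `J(q^d)`, `d ∣ N`, generate `F_k` over `k`. -/
theorem adjoin_range_jdk_eq_top :
    IntermediateField.adjoin k (Set.range (jdk k N)) = ⊤ := by
  have h1 : (IntermediateField.adjoin k (Set.range (jdk k N))).map
      (modularFunctionFieldFullC k N).val = modularFunctionFieldFullC k N := by
    rw [IntermediateField.adjoin_map, ← Set.range_comp]
    exact congrArg (IntermediateField.adjoin k) (range_coe_jdk k N)
  have h2 : (⊤ : IntermediateField k (modularFunctionFieldFullC k N)).map
      (modularFunctionFieldFullC k N).val = modularFunctionFieldFullC k N := by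
    rw [← AlgHom.fieldRange_eq_map, IntermediateField.fieldRange_val]
  exact IntermediateField.map_injective _ (h1.trans h2.symm)

/-! ### Transcendence of `J` -/

theorem transcendental_jk : Transcendental k (jk k N) := by
  rw [transcendental_iff]
  intro p hp
  apply transcendental_iff.mp (Fermat.Agent.S28.ThetaAdjoin.transcendental_jqModC k) p
  have := congrArg (modularFunctionFieldFullC k N).val hp
  rw [← Polynomial.aeval_algHom_apply, map_zero] at this
  exact this

/-! ### Integrality of the `J(q^d)` over `ℤ[J]` -/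

/-- The prime-level integer modular equation, transported to `k((q))`. -/
theorem exists_rel (p : ℕ) [NeZero p] (hp : p.Prime) :
    ∃ Φ : Polynomial (Polynomial ℤ), Φ.Monic ∧ Rel Φ (qExpand k p (jqModC k)) (jqModC k) := by
  obtain ⟨Φ, hm, hΦ⟩ :=
    HasIntRel.of_aeval (Fermat.Agent.S28.ModPolyPrime.exists_monic_eval₂_eq_zero p hp)
  refine ⟨Φ, hm, ?_⟩
  have := hΦ.map (coeffMap (Int.castRingHom k))
  rw [coeffMap_qExpand, coeffMap_jqModC] at this
  exact this

/-- **`J(q^d)` is integral over `ℤ[J]`** inside `k((q))`. -/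
theorem isIntegral_qExpand_closure (d : ℕ) [NeZero d] :
    IsIntegral (Subring.closure ({jqModC k} : Set (LaurentSeries k))) (qExpand k d (jqModC k)) :=
  isIntegral_qExpand (jqModC k) (fun p hp _ => exists_rel k p hp) d

/-- **`J(q^d)`, `d ∣ N`, is integral over `ℤ[J]`** inside `F_k`. -/
theorem isIntegral_jdk_closure (d : {d : ℕ // d ∣ N}) :
    IsIntegral (Subring.closure ({jk k N} : Set ↥(modularFunctionFieldFullC k N))) (jdk k N d) := by
  have : NeZero d.1 := Fermat.Agent.S24.DegreeAlg.neZero_of_dvd d.2
  obtain ⟨Φ, hm, hΦ⟩ := exists_rel_of_isIntegral (isIntegral_qExpand_closure k d.1)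
  refine isIntegral_of_rel hm ?_
  exact Rel.of_map ((modularFunctionFieldFullC k N).val : _ →+* LaurentSeries k)
    (modularFunctionFieldFullC k N).val.injective hΦ

/-- Integrality over a subring gives integrality over any intermediate field containing it. -/
theorem isIntegral_intermediateField_of_subring {K F : Type*} [Field K] [Field F] [Algebra K F]
    (S : Subring F) (E : IntermediateField K F) (hSE : ∀ x ∈ S, x ∈ E) {x : F}
    (hx : IsIntegral S x) : IsIntegral E x := by
  obtain ⟨p, hp, hpx⟩ := hx
  let φ : ↥S →+* ↥E :=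
    { toFun := fun a => ⟨(a : F), hSE a a.2⟩
      map_one' := rfl
      map_mul' := fun _ _ => rfl
      map_zero' := rfl
      map_add' := fun _ _ => rfl }
  refine ⟨p.map φ, hp.map φ, ?_⟩
  rw [Polynomial.eval₂_map]
  exact hpx

/-- Integrality over a subring gives integrality over any subalgebra containing it. -/
theorem isIntegral_subalgebra_of_subring {K F : Type*} [Field K] [Field F] [Algebra K F]
    (S : Subring F) (E : Subalgebra K F) (hSE : ∀ x ∈ S, x ∈ E) {x : F}
    (hx : IsIntegral S x) : IsIntegral E x := by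
  obtain ⟨p, hp, hpx⟩ := hx
  let φ : ↥S →+* ↥E :=
    { toFun := fun a => ⟨(a : F), hSE a a.2⟩
      map_one' := rfl
      map_mul' := fun _ _ => rfl
      map_zero' := rfl
      map_add' := fun _ _ => rfl }
  refine ⟨p.map φ, hp.map φ, ?_⟩
  rw [Polynomial.eval₂_map]
  exact hpx

/-- **`J(q^d)`, `d ∣ N`, is integral over `k[J]`** inside `F_k`. -/
theorem isIntegral_jdk_adjoin (d : {d : ℕ // d ∣ N}) :
    IsIntegral (Algebra.adjoin k ({jk k N} : Set ↥(modularFunctionFieldFullC k N))) (jdk k N d) := by
  refine isIntegral_subalgebra_of_subring _ _ ?_ (isIntegral_jdk_closure k N d)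
  intro x hx
  exact (Subring.closure_le (t := (Algebra.adjoin k
    ({jk k N} : Set ↥(modularFunctionFieldFullC k N))).toSubring)).mpr
    (Set.singleton_subset_iff.mpr (Algebra.subset_adjoin (Set.mem_singleton _))) hx

/-- **`J(q^d)`, `d ∣ N`, is integral over `k(J)`** inside `F_k`. -/
theorem isIntegral_jdk (d : {d : ℕ // d ∣ N}) : IsIntegral k⟮jk k N⟯ (jdk k N d) := by
  refine isIntegral_intermediateField_of_subring _ _ ?_ (isIntegral_jdk_closure k N d)
  intro x hx
  exact (Subring.closure_le (t := (k⟮jk k N⟯).toSubfield.toSubring)).mpr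
    (Set.singleton_subset_iff.mpr (IntermediateField.mem_adjoin_simple_self k _)) hx

/-! ### `F_k` is a function field in one variable with separating-candidate `J` -/

/-- `[F_k : k(J)] < ∞`. -/
theorem finiteDimensional_full :
    FiniteDimensional k⟮jk k N⟯ ↥(modularFunctionFieldFullC k N) := by
  have hfin : Finite {d : ℕ // d ∣ N} :=
    Set.Finite.subset (Set.finite_Iic N) (fun d hd => Nat.le_of_dvd (NeZero.pos N) hd)
      |>.to_subtype
  exact finiteDimensional_of_generators (jdk k N) (adjoin_range_jdk_eq_top k N) (jk k N)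
    (isIntegral_jdk k N)

/-- `J` is transcendental and `F_k / k(J)` is finite: the hypothesis `IsFF` of the abstract
function-field toolkit. -/
theorem isFF : Fermat.Agent.S24.FF.IsFF k (jk k N) :=
  ⟨transcendental_jk k N, finiteDimensional_full k N⟩

/-! ### Igusa's lower bound -/

/-- **Igusa**: `ψ(N) ≤ [F_k : k(J)]` for `k` algebraically closed with `(N : k) ≠ 0`. -/
theorem psi_le_finrank [IsAlgClosed k] (hN : (N : k) ≠ 0) :
    dedekindPsi N ≤ Module.finrank k⟮jk k N⟯ ↥(modularFunctionFieldFullC k N) := by
  have h := Fermat.Agent.S28.IgusaDegree.psiLeRelrank_of_isAlgClosed k N hN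
  have hle : IntermediateField.adjoin k {jqModC k} ≤ modularFunctionFieldFullC k N := by
    rw [IntermediateField.adjoin_simple_le_iff]
    exact jqModC_mem_full k N
  obtain ⟨f, hf, hli⟩ := Fermat.Agent.S28.IgusaCore.exists_linearIndependent_of_le_relrank
    (IntermediateField.adjoin k {jqModC k}) (modularFunctionFieldFullC k N) hle _ h
  haveI := finiteDimensional_full k N
  exact le_finrank_of_linearIndependent_coe (modularFunctionFieldFullC k N) (jk k N) f hf hli

end Fermat.Agent.S18.B.FkBasics
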