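import Mathlib
import Fermat.Agent.S28.ThetaAdjoin
import Fermat.Agent.S18.B.FkBasics

/-!
# PROJECT H (S18), slice H-B3 (backup by helper10): `F_k / k(J)` is separable

For a perfect field `k`, every element of `k((q))` that is algebraic over `k(x)`, where `x` is a
Laurent series with `θ x ≠ 0` (`θ = q d/dq`), is separable over `k(x)`.  In particular
`F_k = k(J(q^d) : d ∣ N)` is separable over `k(J)`.

Route: `D = θ / θ x` is a derivation of `k((q))` extending `d/dx` on `k(x)`.  If the minimal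
polynomial `P` of `y` over `k(x)` is inseparable then `P = g(T^ℓ)`; applying `θ` to
`g(y^ℓ) = 0` kills the powers of `y^ℓ`, so the `θ`-derivatives of the coefficients of `g` give a
relation of smaller degree, hence vanish; elements of `k(x)` killed by `θ` are `ℓ`-th powers
(`k` perfect), so `P` is an `ℓ`-th power: contradiction.
-/

set_option autoImplicit false
set_option linter.style.haveILetI false

noncomputable section

namespace Fermat.Agent.S18.B.SeparableFk

open HahnSeries IntermediateField ModularCurve Polynomial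
  Fermat.Agent.S28.ThetaL Fermat.Agent.S28.ThetaAdjoin

variable {k : Type*} [Field k]

/-! ### `θ` as an additive map, powers, polynomials -/

/-- `θ` as an additive monoid hom -/
def thetaHom : LaurentSeries k →+ LaurentSeries k where
  toFun := thetaL
  map_zero' := thetaL_zero
  map_add' := thetaL_add

@[simp] theorem thetaHom_apply (f : LaurentSeries k) : thetaHom f = thetaL f := rfl

theorem thetaL_sum {ι : Type*} (s : Finset ι) (f : ι → LaurentSeries k) :
    thetaL (∑ i ∈ s, f i) = ∑ i ∈ s, thetaL (f i) :=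
  map_sum thetaHom f s

theorem natCast_eq_C (n : ℕ) : (n : LaurentSeries k) = HahnSeries.C (n : k) := by simp

theorem thetaL_pow' (f : LaurentSeries k) (n : ℕ) :
    thetaL (f ^ n) = HahnSeries.C (n : k) * f ^ (n - 1) * thetaL f := by
  rcases n with _ | n
  · simp [thetaL_one]
  · rw [thetaL_pow, natCast_eq_C, Nat.add_sub_cancel]

theorem thetaL_pow_char (ℓ : ℕ) [CharP k ℓ] (f : LaurentSeries k) : thetaL (f ^ ℓ) = 0 := by
  rw [thetaL_pow', CharP.cast_eq_zero, map_zero, zero_mul, zero_mul]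

theorem thetaL_aeval (x : LaurentSeries k) (A : k[X]) :
    thetaL (aeval x A) = aeval x (derivative A) * thetaL x := by
  induction A using Polynomial.induction_on' with
  | add p q hp hq => rw [map_add, thetaL_add, hp, hq, derivative_add, map_add, add_mul]
  | monomial n a =>
    rw [aeval_monomial, derivative_monomial, aeval_monomial, algebraMap_eq_C, algebraMap_eq_C,
      thetaL_C_mul, thetaL_pow', map_mul, map_natCast]
    ring

/-- `θ` maps `k(x)` into `k(x) · θ x` (the proof of `S28.ThetaAdjoin.thetaL_mem_adjoin`, for any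
`x`). -/
theorem thetaL_mem_adjoin' (x : LaurentSeries k) {c : LaurentSeries k} (hc : c ∈ k⟮x⟯) :
    ∃ d ∈ k⟮x⟯, thetaL c = d * thetaL x := by
  induction hc using IntermediateField.adjoin_induction with
  | mem c hc =>
    rw [Set.mem_singleton_iff] at hc
    subst hc
    exact ⟨1, one_mem _, (one_mul _).symm⟩
  | algebraMap c => exact ⟨0, zero_mem _, by rw [thetaL_algebraMap, zero_mul]⟩
  | add c e hc he ihc ihe =>
    obtain ⟨a, ha, hca⟩ := ihc
    obtain ⟨b, hb, heb⟩ := ihe
    exact ⟨a + b, add_mem ha hb, by rw [thetaL_add, hca, heb, add_mul]⟩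
  | inv c hc ihc =>
    obtain ⟨a, ha, hca⟩ := ihc
    by_cases h0 : c = 0
    · subst h0
      exact ⟨0, zero_mem _, by rw [inv_zero, thetaL_zero, zero_mul]⟩
    · refine ⟨-a * (c⁻¹) ^ 2, mul_mem (neg_mem ha) (pow_mem (inv_mem hc) 2), ?_⟩
      rw [thetaL_inv c h0, hca]; ring
  | mul c e hc he ihc ihe =>
    obtain ⟨a, ha, hca⟩ := ihc
    obtain ⟨b, hb, heb⟩ := ihe
    exact ⟨a * e + c * b, add_mem (mul_mem ha he) (mul_mem hc hb), by
      rw [thetaL_mul, hca, heb]; ring⟩

theorem aeval_mem_adjoin_simple' (x : LaurentSeries k) (g : k[X]) : aeval x g ∈ k⟮x⟯ :=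
  IntermediateField.algebra_adjoin_le_adjoin k {x} (Polynomial.aeval_mem_adjoin_singleton k x)

/-! ### elements of `k(x)` killed by `θ` are `ℓ`-th powers -/

section KeyLemma

variable (ℓ : ℕ) [Fact ℓ.Prime] [CharP k ℓ] [PerfectField k]

/-- a polynomial over a perfect field of characteristic `ℓ` with zero derivative is an `ℓ`-th
power -/
theorem exists_pow_eq_of_derivative_eq_zero {A : k[X]} (hA : derivative A = 0) :
    ∃ g : k[X], g ^ ℓ = A := by
  haveI : ExpChar k ℓ := ExpChar.prime (Fact.out : ℓ.Prime)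
  haveI : PerfectRing k ℓ := PerfectField.toPerfectRing ℓ
  refine ⟨(contract ℓ A).map ((frobeniusEquiv k ℓ).symm : k →+* k), ?_⟩
  rw [← map_frobenius_expand, map_expand, Polynomial.map_map]
  have h1 : (frobenius k ℓ).comp ((frobeniusEquiv k ℓ).symm : k →+* k) = RingHom.id k := by
    ext a
    simp
  rw [h1, Polynomial.map_id]
  exact expand_contract ℓ hA (Fact.out : ℓ.Prime).ne_zero

theorem exists_pow_eq_of_thetaL_eq_zero {x : LaurentSeries k} (hx : Transcendental k x)
    (hθ : thetaL x ≠ 0) {c : LaurentSeries k} (hc : c ∈ k⟮x⟯) (h : thetaL c = 0) :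
    ∃ b ∈ k⟮x⟯, b ^ ℓ = c := by
  have hℓ0 : ℓ ≠ 0 := (Fact.out : ℓ.Prime).ne_zero
  obtain ⟨A, B, hAB⟩ := (mem_adjoin_simple_iff k c).mp hc
  by_cases hB : aeval x B = 0
  · refine ⟨0, zero_mem _, ?_⟩
    rw [hAB, hB, div_zero, zero_pow hℓ0]
  -- `c = A₂(x) / B(x)^ℓ` with `A₂ = A B^(ℓ-1)`
  set A₂ : k[X] := A * B ^ (ℓ - 1) with hA₂
  have hcA₂ : aeval x A₂ = c * (aeval x B) ^ ℓ := by
    rw [hA₂, map_mul, map_pow, hAB]
    have : (aeval x B) ^ ℓ = aeval x B * (aeval x B) ^ (ℓ - 1) := by
      rw [← pow_succ', Nat.sub_add_cancel (Fact.out : ℓ.Prime).one_le]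
    rw [this]
    field_simp
  have hθA₂ : thetaL (aeval x A₂) = 0 := by
    rw [hcA₂, thetaL_mul, h, thetaL_pow_char ℓ, zero_mul, mul_zero, add_zero]
  rw [thetaL_aeval] at hθA₂
  have hder : derivative A₂ = 0 := by
    have h1 : aeval x (derivative A₂) = 0 := (mul_eq_zero.mp hθA₂).resolve_right hθ
    exact (transcendental_iff.mp hx) _ h1
  obtain ⟨g, hg⟩ := exists_pow_eq_of_derivative_eq_zero ℓ hder
  refine ⟨aeval x g / aeval x B, ?_, ?_⟩
  · exact div_mem (aeval_mem_adjoin_simple' x g) (aeval_mem_adjoin_simple' x B)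
  · rw [div_pow, ← map_pow, hg, hcA₂, mul_div_assoc, div_self (pow_ne_zero _ hB), mul_one]

end KeyLemma

/-! ### the main theorem -/

section Main

theorem isSeparable_of_isIntegral_of_charP (ℓ : ℕ) [Fact ℓ.Prime] [CharP k ℓ] [PerfectField k]
    {x : LaurentSeries k} (hx : Transcendental k x)
    (hθ : thetaL x ≠ 0) {y : LaurentSeries k} (hy : IsIntegral k⟮x⟯ y) : IsSeparable k⟮x⟯ y := by
  have hℓ : ℓ.Prime := Fact.out
  haveI : CharP k⟮x⟯ ℓ := charP_of_injective_algebraMap (algebraMap k k⟮x⟯).injective ℓ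
  haveI : ExpChar k⟮x⟯ ℓ := ExpChar.prime hℓ
  by_contra hns
  have hirr : Irreducible (minpoly k⟮x⟯ y) := minpoly.irreducible hy
  rcases separable_or ℓ hirr with hs | ⟨-, g, hg, hgP⟩
  · exact hns hs
  have hgm : g.Monic := (monic_expand_iff hℓ.pos).mp (hgP ▸ minpoly.monic hy)
  have hgz : aeval (y ^ ℓ) g = 0 := by
    rw [← expand_aeval, hgP, minpoly.aeval]
  have hgmin : g = minpoly k⟮x⟯ (y ^ ℓ) := minpoly.eq_of_irreducible_of_monic hg hgz hgm
  -- the `θ`-derivatives of the coefficients of `g`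
  have hd : ∀ j : ℕ, ∃ d : k⟮x⟯,
      thetaL ((g.coeff j : k⟮x⟯) : LaurentSeries k) = (d : LaurentSeries k) * thetaL x := by
    intro j
    obtain ⟨d, hd, h⟩ := thetaL_mem_adjoin' x (g.coeff j).2
    exact ⟨⟨d, hd⟩, h⟩
  choose d hd using hd
  -- `θ` kills the powers of `y ^ ℓ`
  have hθz : ∀ j : ℕ, thetaL ((y ^ ℓ) ^ j) = 0 := by
    intro j
    rw [← pow_mul, mul_comm, pow_mul]
    exact thetaL_pow_char ℓ _
  -- the derived relation
  have hrel : ∑ j ∈ Finset.range (g.natDegree + 1), (d j : LaurentSeries k) * (y ^ ℓ) ^ j = 0 := by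
    have h0 : thetaL (aeval (y ^ ℓ) g) = 0 := by rw [hgz, thetaL_zero]
    rw [aeval_eq_sum_range, thetaL_sum] at h0
    have h1 : ∀ j ∈ Finset.range (g.natDegree + 1), thetaL (g.coeff j • (y ^ ℓ) ^ j) =
        ((d j : LaurentSeries k) * (y ^ ℓ) ^ j) * thetaL x := by
      intro j _
      rw [IntermediateField.smul_def, smul_eq_mul, thetaL_mul, hθz, mul_zero, add_zero, hd]
      ring
    rw [Finset.sum_congr rfl h1, ← Finset.sum_mul] at h0
    exact (mul_eq_zero.mp h0).resolve_right hθ
  -- the top coefficient contributes nothing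
  have hdn : d g.natDegree = 0 := by
    have h := hd g.natDegree
    rw [hgm.coeff_natDegree, OneMemClass.coe_one, thetaL_one] at h
    have h2 : (d g.natDegree : LaurentSeries k) = 0 := (mul_eq_zero.mp h.symm).resolve_right hθ
    exact Subtype.ext h2
  rw [Finset.sum_range_succ, hdn, ZeroMemClass.coe_zero, zero_mul, add_zero] at hrel
  -- linear independence of the powers below the degree
  have hli := linearIndependent_pow (K := k⟮x⟯) (y ^ ℓ)
  rw [← hgmin] at hli
  have hdj : ∀ j : Fin g.natDegree, d j = 0 := by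
    refine Fintype.linearIndependent_iff.mp hli (fun j => d j) ?_
    rw [← hrel, Finset.sum_range]
    refine Finset.sum_congr rfl fun j _ => ?_
    rw [IntermediateField.smul_def, smul_eq_mul]
  -- hence all coefficients of `g` are killed by `θ`
  have hθc : ∀ j : ℕ, thetaL ((g.coeff j : k⟮x⟯) : LaurentSeries k) = 0 := by
    intro j
    rcases lt_trichotomy j g.natDegree with hj | hj | hj
    · rw [hd, hdj ⟨j, hj⟩, ZeroMemClass.coe_zero, zero_mul]
    · rw [hj, hd, hdn, ZeroMemClass.coe_zero, zero_mul]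
    · rw [coeff_eq_zero_of_natDegree_lt hj, ZeroMemClass.coe_zero, thetaL_zero]
  -- so they are `ℓ`-th powers in `k(x)`
  have hb : ∀ j : ℕ, ∃ b : k⟮x⟯, b ^ ℓ = g.coeff j := by
    intro j
    obtain ⟨b, hb, hbc⟩ := exists_pow_eq_of_thetaL_eq_zero ℓ hx hθ (g.coeff j).2 (hθc j)
    exact ⟨⟨b, hb⟩, Subtype.ext hbc⟩
  choose b hb using hb
  -- and `minpoly = g₁ ^ ℓ`
  set g₁ : k⟮x⟯[X] := ∑ j ∈ Finset.range (g.natDegree + 1), monomial j (b j) with hg₁
  have hmap : g₁.map (frobenius k⟮x⟯ ℓ) = g := by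
    rw [hg₁, Polynomial.map_sum]
    conv_rhs => rw [g.as_sum_range]
    refine Finset.sum_congr rfl fun j _ => ?_
    rw [map_monomial, frobenius_def, hb]
  have hpow : minpoly k⟮x⟯ y = g₁ ^ ℓ := by
    rw [← map_frobenius_expand, map_expand, hmap, hgP]
  rw [hpow] at hirr
  have hℓ1 : ℓ = (ℓ - 1) + 1 := (Nat.sub_add_cancel hℓ.one_le).symm
  rw [hℓ1, pow_succ] at hirr
  rcases hirr.isUnit_or_isUnit rfl with h | h
  · rw [isUnit_pow_iff (Nat.sub_ne_zero_of_lt hℓ.one_lt)] at h
    exact hirr.not_isUnit (h.pow (ℓ - 1) |>.mul h)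
  · exact hirr.not_isUnit ((h.pow (ℓ - 1)).mul h)

/-- **separability over `k(x)` inside `k((q))`**, any perfect field `k` (any characteristic) -/
theorem isSeparable_of_isIntegral [PerfectField k] {x : LaurentSeries k}
    (hx : Transcendental k x) (hθ : thetaL x ≠ 0) {y : LaurentSeries k}
    (hy : IsIntegral k⟮x⟯ y) : IsSeparable k⟮x⟯ y := by
  obtain ⟨p, hp⟩ := CharP.exists k
  rcases CharP.char_is_prime_or_zero k p with hpp | rfl
  · haveI := Fact.mk hpp
    exact isSeparable_of_isIntegral_of_charP p hx hθ hy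
  · haveI := CharP.charP_to_charZero k
    haveI : CharZero k⟮x⟯ := charZero_of_injective_algebraMap (algebraMap k k⟮x⟯).injective
    exact (minpoly.irreducible hy).separable

end Main

/-! ### transfer to an intermediate field `F ≤ k((q))` and the final statement for `F_k` -/

section Transfer

variable [PerfectField k]

set_option synthInstance.maxHeartbeats 400000 in
set_option maxHeartbeats 1000000 in
/-- Every intermediate field `F` of `k((q)) / k` that is algebraic over `k(x)`, `x ∈ F` with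
`θ x ≠ 0`, is separable over `k(x)`. -/
theorem isSeparable_intermediateField (F : IntermediateField k (LaurentSeries k)) (x : F)
    (hx : Transcendental k x) (hθ : thetaL (x : LaurentSeries k) ≠ 0)
    [Algebra.IsIntegral k⟮x⟯ F] : Algebra.IsSeparable k⟮x⟯ F := by
  -- the isomorphism `k(x) ≃ k(x)` between the copy inside `F` and the copy inside `k((q))`
  have hmap : (k⟮x⟯).map F.val = k⟮(x : LaurentSeries k)⟯ := by
    rw [IntermediateField.adjoin_map, Set.image_singleton]
    rfl
  let φ : k⟮x⟯ ≃ₐ[k] k⟮(x : LaurentSeries k)⟯ :=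
    (IntermediateField.equivMap k⟮x⟯ F.val).trans (IntermediateField.equivOfEq hmap)
  have hφ : ∀ c : k⟮x⟯, ((φ c : k⟮(x : LaurentSeries k)⟯) : LaurentSeries k) =
      ((c : F) : LaurentSeries k) := fun c => rfl
  have hxM : Transcendental k (x : LaurentSeries k) :=
    (transcendental_algebraMap_iff (algebraMap F (LaurentSeries k)).injective).mpr hx
  refine ⟨fun y => ?_⟩
  have hy : IsIntegral k⟮x⟯ y := Algebra.IsIntegral.isIntegral y
  set P₀ := minpoly k⟮x⟯ y with hP₀
  set Q := P₀.map (φ : k⟮x⟯ →+* k⟮(x : LaurentSeries k)⟯) with hQ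
  have hQm : Q.Monic := (minpoly.monic hy).map _
  have hQirr : Irreducible Q := by
    have h := (MulEquiv.irreducible_iff (Polynomial.mapEquiv φ.toRingEquiv)
      (x := P₀)).mpr (minpoly.irreducible hy)
    exact h
  have hcomp : (algebraMap k⟮(x : LaurentSeries k)⟯ (LaurentSeries k)).comp
      (φ : k⟮x⟯ →+* k⟮(x : LaurentSeries k)⟯) =
      (algebraMap F (LaurentSeries k)).comp (algebraMap k⟮x⟯ F) :=
    RingHom.ext fun c => hφ c
  have hQy : aeval (y : LaurentSeries k) Q = 0 := by
    rw [Polynomial.aeval_def, hQ, Polynomial.eval₂_map, hcomp]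
    have h1 : (y : LaurentSeries k) = algebraMap F (LaurentSeries k) y := rfl
    rw [h1, ← Polynomial.hom_eval₂, ← Polynomial.aeval_def, minpoly.aeval, map_zero]
  have hyM : IsIntegral k⟮(x : LaurentSeries k)⟯ (y : LaurentSeries k) := ⟨Q, hQm, hQy⟩
  have hQmin : Q = minpoly k⟮(x : LaurentSeries k)⟯ (y : LaurentSeries k) :=
    minpoly.eq_of_irreducible_of_monic hQirr hQy hQm
  have hsepM : Q.Separable := by
    rw [hQmin]
    exact isSeparable_of_isIntegral hxM hθ hyM
  exact (separable_map (φ : k⟮x⟯ →+* k⟮(x : LaurentSeries k)⟯)).mp hsepM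

set_option synthInstance.maxHeartbeats 400000 in
/-- **H-B3, END SHAPE**: `F_k = k(J(q^d) : d ∣ N)` is separable over `k(J)`, `k` any perfect
field. -/
theorem isSeparable_jk (k : Type*) [Field k] [PerfectField k] (N : ℕ) [NeZero N] :
    Algebra.IsSeparable k⟮Fermat.Agent.S18.B.FkBasics.jk k N⟯
      (modularFunctionFieldFullC k N) := by
  haveI := Fermat.Agent.S18.B.FkBasics.finiteDimensional_full k N
  haveI : Algebra.IsIntegral k⟮Fermat.Agent.S18.B.FkBasics.jk k N⟯
      (modularFunctionFieldFullC k N) := Algebra.IsIntegral.of_finite _ _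
  exact isSeparable_intermediateField (modularFunctionFieldFullC k N)
    (Fermat.Agent.S18.B.FkBasics.jk k N)
    (Fermat.Agent.S18.B.FkBasics.transcendental_jk k N) (thetaL_jqModC_ne_zero k)

end Transfer

end Fermat.Agent.S18.B.SeparableFk
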