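import Mathlib
import Fermat.Agent.S18.A.Defs
import Fermat.Agent.S18.A.FibreSep

/-!
# PROJECT H (S18), block B, slice H-B7: the genus inequality `g(F₁) ≤ g(F₂)` from Hurwitz

Two function fields `(K₁, F₁, x₁)` (the characteristic zero side in the application) and
`(K₂, F₂, x₂)` (the residue side), `K₁`, `K₂` algebraically closed, `x₁`, `x₂` separating of the
same degree `n`.  Both satisfy the Hurwitz formula `Defs.HurwitzFormula` with Riemann genera `g₁`,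
`g₂`.  Assume

* on side 1 the different exponents are at most tame (`d_P ≤ e_P - 1`) and the fibres of `x₁`
  outside a finite set `T` of branch values have `n` points;
* for a map `φ : K₁ → K₂` of branch values, the total ramification defect
  `∑_{a ∈ T, φ a = b} (n - #x₁⁻¹(a))` of the fibres collapsing to `b` is bounded by the different
  `∑_{Q ∈ x₂⁻¹(b)} d_Q` of the fibre over `b`, and similarly at the poles.

Then `g₁ ≤ g₂` (`genus_le`).  The hypothesis on the fibres follows from `e_Q - 1 ≤ d_Q` and the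
inequality `#x₂⁻¹(φ a) ≤ #x₁⁻¹(a)` of the fibre identity when `φ` is injective on `T`
(`genus_le_of_injOn`, the case `ℓ ≥ 5`); when two branch values collide (`ℓ ∈ {2, 3}`) the bound for
the collision fibre is an explicit hypothesis (`genus_le_of_collision`, input from block C).

All producers enter as explicit hypotheses in place language; nothing here depends on how they are
proved.
-/

set_option autoImplicit false

namespace Fermat.Agent.S18.B.GenusIneq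

open AlgebraicCurve IntermediateField Fermat.Agent.S24.FF
open Fermat.Agent.S18.A

universe u w

/-! ### one function field -/

section OneSide

variable {K : Type w} {F : Type u} [Field K] [Field F] [Algebra K F] {x : F}

/-- **Hurwitz, lower bound.**  Any finite sum of different exponents is at most
`2g - 2 + 2n`. -/
theorem sum_diffExp_le (hx : IsFF K x) (hsep : Algebra.IsSeparable K⟮x⟯ F) {g : ℕ}
    (hH : Defs.HurwitzFormula hx hsep g) (U : Finset (Place K F)) :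
    ∑ Q ∈ U, (Defs.diffExp hx hsep Q : ℤ)
      ≤ 2 * (g : ℤ) - 2 + 2 * (Module.finrank K⟮x⟯ F : ℤ) := by
  classical
  obtain ⟨S, hS, hf⟩ := hH
  have h1 : ∑ Q ∈ U, (Defs.diffExp hx hsep Q : ℤ) ≤ ∑ Q ∈ U ∪ S, (Defs.diffExp hx hsep Q : ℤ) :=
    Finset.sum_le_sum_of_subset_of_nonneg Finset.subset_union_left fun Q _ _ => Nat.cast_nonneg _
  have h2 : ∑ Q ∈ U ∪ S, (Defs.diffExp hx hsep Q : ℤ) = ∑ Q ∈ S, (Defs.diffExp hx hsep Q : ℤ) := by
    symm
    refine Finset.sum_subset Finset.subset_union_right fun Q _ hQ => ?_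
    rw [hS Q hQ, Nat.cast_zero]
  rw [h2] at h1
  linarith

/-- **Hurwitz, upper bound.**  If the different exponents vanish outside `U`, then
`2g - 2 + 2n` is the sum over `U`. -/
theorem eq_sum_diffExp (hx : IsFF K x) (hsep : Algebra.IsSeparable K⟮x⟯ F) {g : ℕ}
    (hH : Defs.HurwitzFormula hx hsep g) (U : Finset (Place K F))
    (hU : ∀ Q, Q ∉ U → Defs.diffExp hx hsep Q = 0) :
    2 * (g : ℤ) - 2 + 2 * (Module.finrank K⟮x⟯ F : ℤ) = ∑ Q ∈ U, (Defs.diffExp hx hsep Q : ℤ) := by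
  classical
  obtain ⟨S, hS, hf⟩ := hH
  have h1 : ∑ Q ∈ U ∪ S, (Defs.diffExp hx hsep Q : ℤ) = ∑ Q ∈ S, (Defs.diffExp hx hsep Q : ℤ) := by
    symm
    refine Finset.sum_subset Finset.subset_union_right fun Q _ hQ => ?_
    rw [hS Q hQ, Nat.cast_zero]
  have h2 : ∑ Q ∈ U ∪ S, (Defs.diffExp hx hsep Q : ℤ) = ∑ Q ∈ U, (Defs.diffExp hx hsep Q : ℤ) := by
    symm
    refine Finset.sum_subset Finset.subset_union_left fun Q _ hQ => ?_
    rw [hU Q hQ, Nat.cast_zero]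
  linarith

variable [IsAlgClosed K]

/-- the ramification defect of the fibre over `a`: `∑_{v | a} (e_v - 1) = n - #fibre`. -/
theorem sum_zeros_sub_one (hx : IsFF K x) (hsep : Algebra.IsSeparable K⟮x⟯ F) (a : K) :
    ∑ v ∈ FibreSep.zeros hx hsep a, (v.ord (x - algebraMap K F a) - 1)
      = (Module.finrank K⟮x⟯ F : ℤ) - ((FibreSep.zeros hx hsep a).card : ℤ) := by
  rw [Finset.sum_sub_distrib, FibreSep.sum_zeros, Finset.sum_const, nsmul_eq_mul, mul_one]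

/-- the ramification defect of the fibre over `∞`. -/
theorem sum_poles_sub_one (hx : IsFF K x) (hsep : Algebra.IsSeparable K⟮x⟯ F) :
    ∑ v ∈ FibreSep.poles hx hsep, (-v.ord x - 1)
      = (Module.finrank K⟮x⟯ F : ℤ) - ((FibreSep.poles hx hsep).card : ℤ) := by
  rw [Finset.sum_sub_distrib, FibreSep.sum_poles, Finset.sum_const, nsmul_eq_mul, mul_one]

/-- fibres over distinct values are disjoint -/
theorem disjoint_zeros_zeros (hx : IsFF K x) (hsep : Algebra.IsSeparable K⟮x⟯ F) {a b : K}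
    (hab : a ≠ b) : Disjoint (FibreSep.zeros hx hsep a) (FibreSep.zeros hx hsep b) := by
  rw [Finset.disjoint_left]
  intro v ha hb
  rw [FibreSep.mem_zeros] at ha hb
  have h1 : v.adicValuation ((x - algebraMap K F a) - (x - algebraMap K F b)) < 1 :=
    Valuation.map_sub_lt _ ha hb
  have h2 : (x - algebraMap K F a) - (x - algebraMap K F b) = algebraMap K F (b - a) := by
    rw [map_sub]; ring
  rw [h2, Fermat.Agent.S24.Ord.adicValuation_algebraMap v (sub_ne_zero.mpr hab.symm)] at h1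
  exact lt_irrefl _ h1

/-- a zero of `x - a` is not a pole of `x` -/
theorem disjoint_zeros_poles (hx : IsFF K x) (hsep : Algebra.IsSeparable K⟮x⟯ F) (a : K) :
    Disjoint (FibreSep.zeros hx hsep a) (FibreSep.poles hx hsep) := by
  rw [Finset.disjoint_left]
  intro v ha hp
  rw [FibreSep.mem_zeros] at ha
  rw [FibreSep.mem_poles] at hp
  have h1 : v.adicValuation (algebraMap K F a) ≤ 1 :=
    (Fermat.Agent.S24.Ord.mem_iff v _).mp (v.algebraMap_mem' a)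
  have h2 : v.adicValuation x ≤ 1 := by
    have : x = (x - algebraMap K F a) + algebraMap K F a := by ring
    rw [this]
    exact Valuation.map_add_le _ ha.le h1
  exact absurd hp (not_lt.mpr h2)

/-- the union of the fibres over `T` and over `∞` -/
noncomputable def branchLocus (hx : IsFF K x) (hsep : Algebra.IsSeparable K⟮x⟯ F)
    (T : Finset K) : Finset (Place K F) :=
  open Classical in T.biUnion (fun a => FibreSep.zeros hx hsep a) ∪ FibreSep.poles hx hsep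

/-- a sum over the branch locus splits into the fibres -/
theorem sum_branchLocus (hx : IsFF K x) (hsep : Algebra.IsSeparable K⟮x⟯ F) (T : Finset K)
    (f : Place K F → ℤ) :
    ∑ Q ∈ branchLocus hx hsep T, f Q
      = ∑ a ∈ T, ∑ Q ∈ FibreSep.zeros hx hsep a, f Q + ∑ Q ∈ FibreSep.poles hx hsep, f Q := by
  classical
  unfold branchLocus
  rw [Finset.sum_union, Finset.sum_biUnion]
  · intro a _ b _ hab
    exact disjoint_zeros_zeros hx hsep hab
  · rw [Finset.disjoint_biUnion_left]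
    intro a _
    exact disjoint_zeros_poles hx hsep a

/-- every place outside the branch locus of `T` is a zero of `x - c` for some `c ∉ T` -/
theorem exists_zero_of_not_mem_branchLocus (hx : IsFF K x) (hsep : Algebra.IsSeparable K⟮x⟯ F)
    (T : Finset K) {Q : Place K F} (hQ : Q ∉ branchLocus hx hsep T) :
    ∃ c : K, c ∉ T ∧ Q ∈ FibreSep.zeros hx hsep c := by
  classical
  unfold branchLocus at hQ
  rw [Finset.mem_union, not_or, Finset.mem_biUnion] at hQ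
  obtain ⟨h1, h2⟩ := hQ
  rw [FibreSep.mem_poles, not_lt] at h2
  obtain ⟨c, hc, -⟩ := Fermat.Agent.S24.Ord.exists_unique_center hx Q h2
  refine ⟨c, fun hcT => h1 ⟨c, hcT, ?_⟩, ?_⟩
  · rw [FibreSep.mem_zeros]; exact hc
  · rw [FibreSep.mem_zeros]; exact hc

/-- in a fibre with `n` points every ramification index is `1` -/
theorem ord_eq_one_of_card_eq (hx : IsFF K x) (hsep : Algebra.IsSeparable K⟮x⟯ F) (c : K)
    (hc : (FibreSep.zeros hx hsep c).card = Module.finrank K⟮x⟯ F) {Q : Place K F}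
    (hQ : Q ∈ FibreSep.zeros hx hsep c) : Q.ord (x - algebraMap K F c) = 1 := by
  have hsum := sum_zeros_sub_one hx hsep c
  rw [hc, sub_self] at hsum
  have hnn : ∀ v ∈ FibreSep.zeros hx hsep c, 0 ≤ v.ord (x - algebraMap K F c) - 1 := by
    intro v hv
    have := (FibreSep.mem_zeros_iff_ord_pos hx hsep c v).mp hv
    omega
  have := (Finset.sum_eq_zero_iff_of_nonneg hnn).mp hsum Q hQ
  omega

/-- **Side 1 (tame, unramified outside `T`).**  `2g - 2 + 2n ≤ ∑_{a ∈ T} (n - #fibre a) +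
(n - #poles)`. -/
theorem hurwitz_le_of_tame (hx : IsFF K x) (hsep : Algebra.IsSeparable K⟮x⟯ F) {g : ℕ}
    (hH : Defs.HurwitzFormula hx hsep g)
    (hz : ∀ (P : Place K F) (c : K), P.adicValuation (x - algebraMap K F c) < 1 →
      (Defs.diffExp hx hsep P : ℤ) ≤ P.ord (x - algebraMap K F c) - 1)
    (hp : ∀ P : Place K F, 1 < P.adicValuation x →
      (Defs.diffExp hx hsep P : ℤ) ≤ -P.ord x - 1)
    (T : Finset K)
    (hT : ∀ c : K, c ∉ T → (FibreSep.zeros hx hsep c).card = Module.finrank K⟮x⟯ F) :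
    2 * (g : ℤ) - 2 + 2 * (Module.finrank K⟮x⟯ F : ℤ)
      ≤ ∑ a ∈ T, ((Module.finrank K⟮x⟯ F : ℤ) - ((FibreSep.zeros hx hsep a).card : ℤ))
        + ((Module.finrank K⟮x⟯ F : ℤ) - ((FibreSep.poles hx hsep).card : ℤ)) := by
  have hU : ∀ Q, Q ∉ branchLocus hx hsep T → Defs.diffExp hx hsep Q = 0 := by
    intro Q hQ
    obtain ⟨c, hcT, hQc⟩ := exists_zero_of_not_mem_branchLocus hx hsep T hQ
    have h1 := ord_eq_one_of_card_eq hx hsep c (hT c hcT) hQc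
    have h2 := hz Q c ((FibreSep.mem_zeros hx hsep c Q).mp hQc)
    rw [h1, sub_self] at h2
    exact_mod_cast le_antisymm h2 (Nat.cast_nonneg _)
  rw [eq_sum_diffExp hx hsep hH _ hU, sum_branchLocus]
  refine add_le_add (Finset.sum_le_sum fun a _ => ?_) ?_
  · rw [← sum_zeros_sub_one hx hsep a]
    exact Finset.sum_le_sum fun Q hQ => hz Q a ((FibreSep.mem_zeros hx hsep a Q).mp hQ)
  · rw [← sum_poles_sub_one hx hsep]
    exact Finset.sum_le_sum fun Q hQ => hp Q ((FibreSep.mem_poles hx hsep Q).mp hQ)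

/-- **Side 2.**  The different of the fibres over a finite set of values and over `∞` is at most
`2g - 2 + 2n`. -/
theorem sum_fibres_le_hurwitz (hx : IsFF K x) (hsep : Algebra.IsSeparable K⟮x⟯ F) {g : ℕ}
    (hH : Defs.HurwitzFormula hx hsep g) (T : Finset K) :
    ∑ b ∈ T, ∑ Q ∈ FibreSep.zeros hx hsep b, (Defs.diffExp hx hsep Q : ℤ)
        + ∑ Q ∈ FibreSep.poles hx hsep, (Defs.diffExp hx hsep Q : ℤ)
      ≤ 2 * (g : ℤ) - 2 + 2 * (Module.finrank K⟮x⟯ F : ℤ) := by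
  rw [← sum_branchLocus hx hsep T fun Q => (Defs.diffExp hx hsep Q : ℤ)]
  exact sum_diffExp_le hx hsep hH _

/-- the defect of a fibre is bounded by its different: `n - #fibre b ≤ ∑_{Q | b} d_Q`. -/
theorem defect_zeros_le (hx : IsFF K x) (hsep : Algebra.IsSeparable K⟮x⟯ F)
    (hz : ∀ (Q : Place K F) (c : K), Q.adicValuation (x - algebraMap K F c) < 1 →
      Q.ord (x - algebraMap K F c) - 1 ≤ (Defs.diffExp hx hsep Q : ℤ)) (b : K) :
    (Module.finrank K⟮x⟯ F : ℤ) - ((FibreSep.zeros hx hsep b).card : ℤ)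
      ≤ ∑ Q ∈ FibreSep.zeros hx hsep b, (Defs.diffExp hx hsep Q : ℤ) := by
  rw [← sum_zeros_sub_one hx hsep b]
  exact Finset.sum_le_sum fun Q hQ => hz Q b ((FibreSep.mem_zeros hx hsep b Q).mp hQ)

/-- the defect of the polar fibre is bounded by its different. -/
theorem defect_poles_le (hx : IsFF K x) (hsep : Algebra.IsSeparable K⟮x⟯ F)
    (hp : ∀ Q : Place K F, 1 < Q.adicValuation x →
      -Q.ord x - 1 ≤ (Defs.diffExp hx hsep Q : ℤ)) :
    (Module.finrank K⟮x⟯ F : ℤ) - ((FibreSep.poles hx hsep).card : ℤ)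
      ≤ ∑ Q ∈ FibreSep.poles hx hsep, (Defs.diffExp hx hsep Q : ℤ) := by
  rw [← sum_poles_sub_one hx hsep]
  exact Finset.sum_le_sum fun Q hQ => hp Q ((FibreSep.mem_poles hx hsep Q).mp hQ)

end OneSide

/-! ### two function fields -/

section TwoSides

universe u₁ w₁ u₂ w₂

variable {K₁ : Type w₁} {F₁ : Type u₁} [Field K₁] [Field F₁] [Algebra K₁ F₁] [IsAlgClosed K₁]
variable {K₂ : Type w₂} {F₂ : Type u₂} [Field K₂] [Field F₂] [Algebra K₂ F₂] [IsAlgClosed K₂]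
variable {x₁ : F₁} {x₂ : F₂}

/-- **The genus inequality, general form.** -/
theorem genus_le
    (hx₁ : IsFF K₁ x₁) (hsep₁ : Algebra.IsSeparable K₁⟮x₁⟯ F₁) {g₁ : ℕ}
    (hH₁ : Defs.HurwitzFormula hx₁ hsep₁ g₁)
    (hz₁ : ∀ (P : Place K₁ F₁) (c : K₁), P.adicValuation (x₁ - algebraMap K₁ F₁ c) < 1 →
      (Defs.diffExp hx₁ hsep₁ P : ℤ) ≤ P.ord (x₁ - algebraMap K₁ F₁ c) - 1)
    (hp₁ : ∀ P : Place K₁ F₁, 1 < P.adicValuation x₁ →
      (Defs.diffExp hx₁ hsep₁ P : ℤ) ≤ -P.ord x₁ - 1)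
    (T : Finset K₁)
    (hT : ∀ c : K₁, c ∉ T → (FibreSep.zeros hx₁ hsep₁ c).card = Module.finrank K₁⟮x₁⟯ F₁)
    (hx₂ : IsFF K₂ x₂) (hsep₂ : Algebra.IsSeparable K₂⟮x₂⟯ F₂) {g₂ : ℕ}
    (hH₂ : Defs.HurwitzFormula hx₂ hsep₂ g₂)
    (hn : Module.finrank K₁⟮x₁⟯ F₁ = Module.finrank K₂⟮x₂⟯ F₂)
    (φ : K₁ → K₂) [DecidableEq K₂]
    (hfib : ∀ b ∈ T.image φ,
      ∑ a ∈ T.filter (fun a => φ a = b),
          ((Module.finrank K₁⟮x₁⟯ F₁ : ℤ) - ((FibreSep.zeros hx₁ hsep₁ a).card : ℤ))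
        ≤ ∑ Q ∈ FibreSep.zeros hx₂ hsep₂ b, (Defs.diffExp hx₂ hsep₂ Q : ℤ))
    (hpol : (Module.finrank K₁⟮x₁⟯ F₁ : ℤ) - ((FibreSep.poles hx₁ hsep₁).card : ℤ)
      ≤ ∑ Q ∈ FibreSep.poles hx₂ hsep₂, (Defs.diffExp hx₂ hsep₂ Q : ℤ)) :
    g₁ ≤ g₂ := by
  have h1 := hurwitz_le_of_tame hx₁ hsep₁ hH₁ hz₁ hp₁ T hT
  have h2 := sum_fibres_le_hurwitz hx₂ hsep₂ hH₂ (T.image φ)
  have h3 : ∑ a ∈ T, ((Module.finrank K₁⟮x₁⟯ F₁ : ℤ) - ((FibreSep.zeros hx₁ hsep₁ a).card : ℤ))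
      ≤ ∑ b ∈ T.image φ, ∑ Q ∈ FibreSep.zeros hx₂ hsep₂ b, (Defs.diffExp hx₂ hsep₂ Q : ℤ) := by
    rw [← Finset.sum_fiberwise_of_maps_to (s := T) (t := T.image φ) (g := φ)
      (fun a ha => Finset.mem_image_of_mem φ ha)]
    exact Finset.sum_le_sum hfib
  have hn' : (Module.finrank K₁⟮x₁⟯ F₁ : ℤ) = (Module.finrank K₂⟮x₂⟯ F₂ : ℤ) := by
    exact_mod_cast hn
  have : 2 * (g₁ : ℤ) ≤ 2 * (g₂ : ℤ) := by linarith
  omega

/-- **The genus inequality when the branch values stay distinct** (`ℓ ≥ 5`). -/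
theorem genus_le_of_injOn
    (hx₁ : IsFF K₁ x₁) (hsep₁ : Algebra.IsSeparable K₁⟮x₁⟯ F₁) {g₁ : ℕ}
    (hH₁ : Defs.HurwitzFormula hx₁ hsep₁ g₁)
    (hz₁ : ∀ (P : Place K₁ F₁) (c : K₁), P.adicValuation (x₁ - algebraMap K₁ F₁ c) < 1 →
      (Defs.diffExp hx₁ hsep₁ P : ℤ) ≤ P.ord (x₁ - algebraMap K₁ F₁ c) - 1)
    (hp₁ : ∀ P : Place K₁ F₁, 1 < P.adicValuation x₁ →
      (Defs.diffExp hx₁ hsep₁ P : ℤ) ≤ -P.ord x₁ - 1)
    (T : Finset K₁)
    (hT : ∀ c : K₁, c ∉ T → (FibreSep.zeros hx₁ hsep₁ c).card = Module.finrank K₁⟮x₁⟯ F₁)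
    (hx₂ : IsFF K₂ x₂) (hsep₂ : Algebra.IsSeparable K₂⟮x₂⟯ F₂) {g₂ : ℕ}
    (hH₂ : Defs.HurwitzFormula hx₂ hsep₂ g₂)
    (hz₂ : ∀ (Q : Place K₂ F₂) (c : K₂), Q.adicValuation (x₂ - algebraMap K₂ F₂ c) < 1 →
      Q.ord (x₂ - algebraMap K₂ F₂ c) - 1 ≤ (Defs.diffExp hx₂ hsep₂ Q : ℤ))
    (hp₂ : ∀ Q : Place K₂ F₂, 1 < Q.adicValuation x₂ →
      -Q.ord x₂ - 1 ≤ (Defs.diffExp hx₂ hsep₂ Q : ℤ))
    (hn : Module.finrank K₁⟮x₁⟯ F₁ = Module.finrank K₂⟮x₂⟯ F₂)
    (φ : K₁ → K₂) (hφ : Set.InjOn φ (T : Set K₁))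
    (hcz : ∀ a ∈ T, (FibreSep.zeros hx₂ hsep₂ (φ a)).card ≤ (FibreSep.zeros hx₁ hsep₁ a).card)
    (hcp : (FibreSep.poles hx₂ hsep₂).card ≤ (FibreSep.poles hx₁ hsep₁).card) :
    g₁ ≤ g₂ := by
  classical
  have hn' : (Module.finrank K₁⟮x₁⟯ F₁ : ℤ) = (Module.finrank K₂⟮x₂⟯ F₂ : ℤ) := by
    exact_mod_cast hn
  refine genus_le hx₁ hsep₁ hH₁ hz₁ hp₁ T hT hx₂ hsep₂ hH₂ hn φ ?_ ?_
  · intro b hb
    obtain ⟨a, haT, rfl⟩ := Finset.mem_image.mp hb
    have hfil : T.filter (fun a' => φ a' = φ a) = {a} := by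
      ext a'
      rw [Finset.mem_filter, Finset.mem_singleton]
      exact ⟨fun h => hφ h.1 haT h.2, fun h => by subst h; exact ⟨haT, rfl⟩⟩
    rw [hfil, Finset.sum_singleton]
    have h1 := defect_zeros_le hx₂ hsep₂ hz₂ (φ a)
    have h2 : ((FibreSep.zeros hx₂ hsep₂ (φ a)).card : ℤ) ≤ (FibreSep.zeros hx₁ hsep₁ a).card := by
      exact_mod_cast hcz a haT
    linarith
  · have h1 := defect_poles_le hx₂ hsep₂ hp₂
    have h2 : ((FibreSep.poles hx₂ hsep₂).card : ℤ) ≤ (FibreSep.poles hx₁ hsep₁).card := by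
      exact_mod_cast hcp
    linarith

/-- **The genus inequality when two branch values collide** (`ℓ ∈ {2, 3}`): the bound for the
collision fibre is the hypothesis `hC` (block C). -/
theorem genus_le_of_collision
    (hx₁ : IsFF K₁ x₁) (hsep₁ : Algebra.IsSeparable K₁⟮x₁⟯ F₁) {g₁ : ℕ}
    (hH₁ : Defs.HurwitzFormula hx₁ hsep₁ g₁)
    (hz₁ : ∀ (P : Place K₁ F₁) (c : K₁), P.adicValuation (x₁ - algebraMap K₁ F₁ c) < 1 →
      (Defs.diffExp hx₁ hsep₁ P : ℤ) ≤ P.ord (x₁ - algebraMap K₁ F₁ c) - 1)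
    (hp₁ : ∀ P : Place K₁ F₁, 1 < P.adicValuation x₁ →
      (Defs.diffExp hx₁ hsep₁ P : ℤ) ≤ -P.ord x₁ - 1)
    (a a' : K₁) (haa' : a ≠ a')
    (hT : ∀ c : K₁, c ≠ a → c ≠ a' →
      (FibreSep.zeros hx₁ hsep₁ c).card = Module.finrank K₁⟮x₁⟯ F₁)
    (hx₂ : IsFF K₂ x₂) (hsep₂ : Algebra.IsSeparable K₂⟮x₂⟯ F₂) {g₂ : ℕ}
    (hH₂ : Defs.HurwitzFormula hx₂ hsep₂ g₂)
    (hp₂ : ∀ Q : Place K₂ F₂, 1 < Q.adicValuation x₂ →
      -Q.ord x₂ - 1 ≤ (Defs.diffExp hx₂ hsep₂ Q : ℤ))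
    (hn : Module.finrank K₁⟮x₁⟯ F₁ = Module.finrank K₂⟮x₂⟯ F₂)
    (b : K₂)
    (hC : ((Module.finrank K₁⟮x₁⟯ F₁ : ℤ) - ((FibreSep.zeros hx₁ hsep₁ a).card : ℤ))
        + ((Module.finrank K₁⟮x₁⟯ F₁ : ℤ) - ((FibreSep.zeros hx₁ hsep₁ a').card : ℤ))
      ≤ ∑ Q ∈ FibreSep.zeros hx₂ hsep₂ b, (Defs.diffExp hx₂ hsep₂ Q : ℤ))
    (hcp : (FibreSep.poles hx₂ hsep₂).card ≤ (FibreSep.poles hx₁ hsep₁).card) :
    g₁ ≤ g₂ := by
  classical
  have hn' : (Module.finrank K₁⟮x₁⟯ F₁ : ℤ) = (Module.finrank K₂⟮x₂⟯ F₂ : ℤ) := by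
    exact_mod_cast hn
  refine genus_le hx₁ hsep₁ hH₁ hz₁ hp₁ ({a, a'} : Finset K₁) ?_ hx₂ hsep₂ hH₂ hn
    (fun _ => b) ?_ ?_
  · intro c hc
    rw [Finset.mem_insert, Finset.mem_singleton, not_or] at hc
    exact hT c hc.1 hc.2
  · intro b' hb'
    obtain ⟨c, -, rfl⟩ := Finset.mem_image.mp hb'
    rw [Finset.filter_true_of_mem (fun _ _ => rfl), Finset.sum_pair haa']
    exact hC
  · have h1 := defect_poles_le hx₂ hsep₂ hp₂
    have h2 : ((FibreSep.poles hx₂ hsep₂).card : ℤ) ≤ (FibreSep.poles hx₁ hsep₁).card := by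
      exact_mod_cast hcp
    linarith

end TwoSides

end Fermat.Agent.S18.B.GenusIneq
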