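import Mathlib
import Fermat.Agent.S18.B.GenusIneq
import Fermat.Agent.S18.A.Instances
import Fermat.Agent.S18.B.FkBasics
import Fermat.Agent.S24.OrbitsPtAlt

/-!
# PROJECT H (S18), block B, slice H-B7 (concrete part): `g(ℚ̄(X₀(N))) ≤ g(F_k)`

The abstract genus inequality `GenusIneq.genus_le_of_injOn` / `genus_le_of_collision` instantiated
at

* side 1: `F_L = ModularCurve.modularFunctionFieldBar N` over `ℚ̄`, `x₁ = jgen N`, branch values
  `T = {1728, 0}` (the generic fibres have `n` points by `S24.OrbitsPtAlt.card_generic`);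
* side 2: `F_k = ModularCurve.modularFunctionFieldFullC k N` over an algebraically closed field
  `k`, `x₂ = jk k N`.

What remains as hypotheses are exactly the outputs of the other slices: the two Hurwitz formulas
(H-A9), the different bounds (H-A10), separability of `F_k / k(j)` (H-B3), equality of the degrees
and the three cardinality inequalities of the fibre identity (H-B6), and for `1728 = 0` in `k`
(`ℓ ∈ {2, 3}`) the bound `hC` for the collision fibre (block C, contract K3).
-/

set_option autoImplicit false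

namespace Fermat.Agent.S18.B.GenusIneqX0

open AlgebraicCurve IntermediateField ModularCurve Fermat.Agent.S24.FF
open Fermat.Agent.S18.A Fermat.Agent.S18.B
open Fermat.Agent.S24.DegreeAlg (jgen)

local notation "Kb" => AlgebraicClosure ℚ

variable (N : ℕ) [NeZero N]

/-- **The generic fibres of `j` on `X₀(N)` have `n` points** (S24), in the `FibreSep` language. -/
theorem card_zeros_jgen (a : Kb) (h1728 : a ≠ 1728) (h0 : a ≠ 0) :
    (FibreSep.zeros (Instances.isFF_jgen N) (Instances.isSeparable_jgen N) a).card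
      = Module.finrank Kb⟮jgen N⟯ ↥(modularFunctionFieldBar N) := by
  rw [← FibreSep.card_zeros, Fermat.Agent.S24.OrbitsPtAlt.card_generic N a h1728 h0,
    Instances.finrank_jgen]

section

variable {k : Type*} [Field k] [IsAlgClosed k]

/-- **`g(F_L) ≤ g(F_k)` when `1728 ≠ 0` in `k`** (`ℓ ≥ 5`). -/
theorem genus_le_of_ne
    (hsep₂ : Algebra.IsSeparable k⟮FkBasics.jk k N⟯ ↥(modularFunctionFieldFullC k N))
    {gL gk : ℕ}
    (hHL : Defs.HurwitzFormula (Instances.isFF_jgen N) (Instances.isSeparable_jgen N) gL)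
    (hHk : Defs.HurwitzFormula (FkBasics.isFF k N) hsep₂ gk)
    (hz₁ : ∀ (P : Place Kb ↥(modularFunctionFieldBar N)) (c : Kb),
      P.adicValuation (jgen N - algebraMap Kb _ c) < 1 →
      (Defs.diffExp (Instances.isFF_jgen N) (Instances.isSeparable_jgen N) P : ℤ)
        ≤ P.ord (jgen N - algebraMap Kb _ c) - 1)
    (hp₁ : ∀ P : Place Kb ↥(modularFunctionFieldBar N), 1 < P.adicValuation (jgen N) →
      (Defs.diffExp (Instances.isFF_jgen N) (Instances.isSeparable_jgen N) P : ℤ)
        ≤ -P.ord (jgen N) - 1)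
    (hz₂ : ∀ (Q : Place k ↥(modularFunctionFieldFullC k N)) (c : k),
      Q.adicValuation (FkBasics.jk k N - algebraMap k _ c) < 1 →
      Q.ord (FkBasics.jk k N - algebraMap k _ c) - 1
        ≤ (Defs.diffExp (FkBasics.isFF k N) hsep₂ Q : ℤ))
    (hp₂ : ∀ Q : Place k ↥(modularFunctionFieldFullC k N), 1 < Q.adicValuation (FkBasics.jk k N) →
      -Q.ord (FkBasics.jk k N) - 1 ≤ (Defs.diffExp (FkBasics.isFF k N) hsep₂ Q : ℤ))
    (hn : Module.finrank Kb⟮jgen N⟯ ↥(modularFunctionFieldBar N)
      = Module.finrank k⟮FkBasics.jk k N⟯ ↥(modularFunctionFieldFullC k N))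
    (h1728 : (1728 : k) ≠ 0)
    (hc0 : (FibreSep.zeros (FkBasics.isFF k N) hsep₂ 0).card
      ≤ (FibreSep.zeros (Instances.isFF_jgen N) (Instances.isSeparable_jgen N) 0).card)
    (hc1728 : (FibreSep.zeros (FkBasics.isFF k N) hsep₂ 1728).card
      ≤ (FibreSep.zeros (Instances.isFF_jgen N) (Instances.isSeparable_jgen N) 1728).card)
    (hcp : (FibreSep.poles (FkBasics.isFF k N) hsep₂).card
      ≤ (FibreSep.poles (Instances.isFF_jgen N) (Instances.isSeparable_jgen N)).card) :
    gL ≤ gk := by
  classical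
  have h17280 : (1728 : Kb) ≠ 0 := by norm_num
  refine GenusIneq.genus_le_of_injOn (Instances.isFF_jgen N) (Instances.isSeparable_jgen N) hHL
    hz₁ hp₁ ({1728, 0} : Finset Kb) ?_ (FkBasics.isFF k N) hsep₂ hHk hz₂ hp₂ hn
    (fun c => if c = 0 then (0 : k) else 1728) ?_ ?_ hcp
  · intro c hc
    rw [Finset.mem_insert, Finset.mem_singleton, not_or] at hc
    exact card_zeros_jgen N c hc.1 hc.2
  · intro a ha b hb hab
    rw [Finset.mem_coe, Finset.mem_insert, Finset.mem_singleton] at ha hb
    dsimp only at hab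
    rcases ha with rfl | rfl <;> rcases hb with rfl | rfl
    · rfl
    · rw [if_neg h17280, if_pos rfl] at hab
      exact absurd hab h1728
    · rw [if_neg h17280, if_pos rfl] at hab
      exact absurd hab.symm h1728
    · rfl
  · intro a ha
    rw [Finset.mem_insert, Finset.mem_singleton] at ha
    rcases ha with rfl | rfl
    · rw [if_neg h17280]
      exact hc1728
    · rw [if_pos rfl]
      exact hc0

/-- **`g(F_L) ≤ g(F_k)` when `1728 = 0` in `k`** (`ℓ ∈ {2, 3}`), given the bound `hC` of block C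
for the different of the supersingular fibre. -/
theorem genus_le_of_collision
    (hsep₂ : Algebra.IsSeparable k⟮FkBasics.jk k N⟯ ↥(modularFunctionFieldFullC k N))
    {gL gk : ℕ}
    (hHL : Defs.HurwitzFormula (Instances.isFF_jgen N) (Instances.isSeparable_jgen N) gL)
    (hHk : Defs.HurwitzFormula (FkBasics.isFF k N) hsep₂ gk)
    (hz₁ : ∀ (P : Place Kb ↥(modularFunctionFieldBar N)) (c : Kb),
      P.adicValuation (jgen N - algebraMap Kb _ c) < 1 →
      (Defs.diffExp (Instances.isFF_jgen N) (Instances.isSeparable_jgen N) P : ℤ)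
        ≤ P.ord (jgen N - algebraMap Kb _ c) - 1)
    (hp₁ : ∀ P : Place Kb ↥(modularFunctionFieldBar N), 1 < P.adicValuation (jgen N) →
      (Defs.diffExp (Instances.isFF_jgen N) (Instances.isSeparable_jgen N) P : ℤ)
        ≤ -P.ord (jgen N) - 1)
    (hp₂ : ∀ Q : Place k ↥(modularFunctionFieldFullC k N), 1 < Q.adicValuation (FkBasics.jk k N) →
      -Q.ord (FkBasics.jk k N) - 1 ≤ (Defs.diffExp (FkBasics.isFF k N) hsep₂ Q : ℤ))
    (hn : Module.finrank Kb⟮jgen N⟯ ↥(modularFunctionFieldBar N)
      = Module.finrank k⟮FkBasics.jk k N⟯ ↥(modularFunctionFieldFullC k N))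
    (hC : ((Module.finrank Kb⟮jgen N⟯ ↥(modularFunctionFieldBar N) : ℤ)
          - ((FibreSep.zeros (Instances.isFF_jgen N) (Instances.isSeparable_jgen N) 0).card : ℤ))
        + ((Module.finrank Kb⟮jgen N⟯ ↥(modularFunctionFieldBar N) : ℤ)
          - ((FibreSep.zeros (Instances.isFF_jgen N) (Instances.isSeparable_jgen N) 1728).card : ℤ))
      ≤ ∑ Q ∈ FibreSep.zeros (FkBasics.isFF k N) hsep₂ 0,
          (Defs.diffExp (FkBasics.isFF k N) hsep₂ Q : ℤ))
    (hcp : (FibreSep.poles (FkBasics.isFF k N) hsep₂).card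
      ≤ (FibreSep.poles (Instances.isFF_jgen N) (Instances.isSeparable_jgen N)).card) :
    gL ≤ gk := by
  have h17280 : (0 : Kb) ≠ 1728 := by norm_num
  exact GenusIneq.genus_le_of_collision (Instances.isFF_jgen N) (Instances.isSeparable_jgen N) hHL
    hz₁ hp₁ 0 1728 h17280 (fun c h0 h1728 => card_zeros_jgen N c h1728 h0)
    (FkBasics.isFF k N) hsep₂ hHk hp₂ hn 0 hC hcp

end

end Fermat.Agent.S18.B.GenusIneqX0
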