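import Mathlib
import Fermat.Agent.S18.B.GenusIneqX0
import Fermat.Agent.S18.A.DiffLower

/-!
# PROJECT H (S18), block B, slice H-B7: the genus inequality with the different bounds discharged

`GenusIneq.genus_le_of_injOn`, `GenusIneq.genus_le_of_collision` and their `X₀(N)` instances
`GenusIneqX0.genus_le_of_ne`, `GenusIneqX0.genus_le_of_collision` with the four hypotheses on
different exponents replaced by `A/DiffLower.lean` (H-A10): the tame equality in characteristic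
zero on side 1 and the bound `e_Q - 1 ≤ d_Q` on side 2.

The remaining hypotheses are: the two Hurwitz formulas (H-A9), separability of `F_k / k(j)` (H-B3),
equality of degrees and the three cardinality inequalities (H-B6), and for `1728 = 0` in `k` the
bound `hC` of block C.
-/

set_option autoImplicit false

namespace Fermat.Agent.S18.B.GenusIneqDiff

open AlgebraicCurve IntermediateField ModularCurve Fermat.Agent.S24.FF
open Fermat.Agent.S18.A Fermat.Agent.S18.B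
open Fermat.Agent.S24.DegreeAlg (jgen)

section Abstract

universe u₁ w₁ u₂ w₂

variable {K₁ : Type w₁} {F₁ : Type u₁} [Field K₁] [Field F₁] [Algebra K₁ F₁] [IsAlgClosed K₁]
variable {K₂ : Type w₂} {F₂ : Type u₂} [Field K₂] [Field F₂] [Algebra K₂ F₂] [IsAlgClosed K₂]
variable {x₁ : F₁} {x₂ : F₂}

/-- **The genus inequality, branch values staying distinct**, side 1 of characteristic zero. -/
theorem genus_le_of_injOn [CharZero K₁]
    (hx₁ : IsFF K₁ x₁) (hsep₁ : Algebra.IsSeparable K₁⟮x₁⟯ F₁) {g₁ : ℕ}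
    (hH₁ : Defs.HurwitzFormula hx₁ hsep₁ g₁)
    (T : Finset K₁)
    (hT : ∀ c : K₁, c ∉ T → (FibreSep.zeros hx₁ hsep₁ c).card = Module.finrank K₁⟮x₁⟯ F₁)
    (hx₂ : IsFF K₂ x₂) (hsep₂ : Algebra.IsSeparable K₂⟮x₂⟯ F₂) {g₂ : ℕ}
    (hH₂ : Defs.HurwitzFormula hx₂ hsep₂ g₂)
    (hn : Module.finrank K₁⟮x₁⟯ F₁ = Module.finrank K₂⟮x₂⟯ F₂)
    (φ : K₁ → K₂) (hφ : Set.InjOn φ (T : Set K₁))
    (hcz : ∀ a ∈ T, (FibreSep.zeros hx₂ hsep₂ (φ a)).card ≤ (FibreSep.zeros hx₁ hsep₁ a).card)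
    (hcp : (FibreSep.poles hx₂ hsep₂).card ≤ (FibreSep.poles hx₁ hsep₁).card) :
    g₁ ≤ g₂ :=
  GenusIneq.genus_le_of_injOn hx₁ hsep₁ hH₁
    (fun _ c hP => (DiffLower.diffExp_eq_of_charZero_zero hx₁ hsep₁ c hP).le)
    (fun _ hP => (DiffLower.diffExp_eq_of_charZero_pole hx₁ hsep₁ hP).le)
    T hT hx₂ hsep₂ hH₂
    (fun _ c hQ => DiffLower.sub_one_le_diffExp_zero hx₂ hsep₂ c hQ)
    (fun _ hQ => DiffLower.sub_one_le_diffExp_pole hx₂ hsep₂ hQ)
    hn φ hφ hcz hcp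

/-- **The genus inequality, two branch values colliding**, side 1 of characteristic zero. -/
theorem genus_le_of_collision [CharZero K₁]
    (hx₁ : IsFF K₁ x₁) (hsep₁ : Algebra.IsSeparable K₁⟮x₁⟯ F₁) {g₁ : ℕ}
    (hH₁ : Defs.HurwitzFormula hx₁ hsep₁ g₁)
    (a a' : K₁) (haa' : a ≠ a')
    (hT : ∀ c : K₁, c ≠ a → c ≠ a' →
      (FibreSep.zeros hx₁ hsep₁ c).card = Module.finrank K₁⟮x₁⟯ F₁)
    (hx₂ : IsFF K₂ x₂) (hsep₂ : Algebra.IsSeparable K₂⟮x₂⟯ F₂) {g₂ : ℕ}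
    (hH₂ : Defs.HurwitzFormula hx₂ hsep₂ g₂)
    (hn : Module.finrank K₁⟮x₁⟯ F₁ = Module.finrank K₂⟮x₂⟯ F₂)
    (b : K₂)
    (hC : ((Module.finrank K₁⟮x₁⟯ F₁ : ℤ) - ((FibreSep.zeros hx₁ hsep₁ a).card : ℤ))
        + ((Module.finrank K₁⟮x₁⟯ F₁ : ℤ) - ((FibreSep.zeros hx₁ hsep₁ a').card : ℤ))
      ≤ ∑ Q ∈ FibreSep.zeros hx₂ hsep₂ b, (Defs.diffExp hx₂ hsep₂ Q : ℤ))
    (hcp : (FibreSep.poles hx₂ hsep₂).card ≤ (FibreSep.poles hx₁ hsep₁).card) :
    g₁ ≤ g₂ :=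
  GenusIneq.genus_le_of_collision hx₁ hsep₁ hH₁
    (fun _ c hP => (DiffLower.diffExp_eq_of_charZero_zero hx₁ hsep₁ c hP).le)
    (fun _ hP => (DiffLower.diffExp_eq_of_charZero_pole hx₁ hsep₁ hP).le)
    a a' haa' hT hx₂ hsep₂ hH₂
    (fun _ hQ => DiffLower.sub_one_le_diffExp_pole hx₂ hsep₂ hQ)
    hn b hC hcp

end Abstract

section X0

local notation "Kb" => AlgebraicClosure ℚ

variable (N : ℕ) [NeZero N] {k : Type*} [Field k] [IsAlgClosed k]

/-- **`g(F_L) ≤ g(F_k)` for `X₀(N)` when `1728 ≠ 0` in `k`** (`ℓ ≥ 5`). -/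
theorem genus_le_X0_of_ne
    (hsep₂ : Algebra.IsSeparable k⟮FkBasics.jk k N⟯ ↥(modularFunctionFieldFullC k N))
    {gL gk : ℕ}
    (hHL : Defs.HurwitzFormula (Instances.isFF_jgen N) (Instances.isSeparable_jgen N) gL)
    (hHk : Defs.HurwitzFormula (FkBasics.isFF k N) hsep₂ gk)
    (hn : Module.finrank Kb⟮jgen N⟯ ↥(modularFunctionFieldBar N)
      = Module.finrank k⟮FkBasics.jk k N⟯ ↥(modularFunctionFieldFullC k N))
    (h1728 : (1728 : k) ≠ 0)
    (hc0 : (FibreSep.zeros (FkBasics.isFF k N) hsep₂ 0).card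
      ≤ (FibreSep.zeros (Instances.isFF_jgen N) (Instances.isSeparable_jgen N) 0).card)
    (hc1728 : (FibreSep.zeros (FkBasics.isFF k N) hsep₂ 1728).card
      ≤ (FibreSep.zeros (Instances.isFF_jgen N) (Instances.isSeparable_jgen N) 1728).card)
    (hcp : (FibreSep.poles (FkBasics.isFF k N) hsep₂).card
      ≤ (FibreSep.poles (Instances.isFF_jgen N) (Instances.isSeparable_jgen N)).card) :
    gL ≤ gk :=
  GenusIneqX0.genus_le_of_ne N hsep₂ hHL hHk
    (fun _ c hP => (DiffLower.diffExp_eq_of_charZero_zero _ _ c hP).le)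
    (fun _ hP => (DiffLower.diffExp_eq_of_charZero_pole _ _ hP).le)
    (fun _ c hQ => DiffLower.sub_one_le_diffExp_zero _ hsep₂ c hQ)
    (fun _ hQ => DiffLower.sub_one_le_diffExp_pole _ hsep₂ hQ)
    hn h1728 hc0 hc1728 hcp

/-- **`g(F_L) ≤ g(F_k)` for `X₀(N)` when `1728 = 0` in `k`** (`ℓ ∈ {2, 3}`), given the bound `hC`
of block C for the different of the supersingular fibre. -/
theorem genus_le_X0_of_collision
    (hsep₂ : Algebra.IsSeparable k⟮FkBasics.jk k N⟯ ↥(modularFunctionFieldFullC k N))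
    {gL gk : ℕ}
    (hHL : Defs.HurwitzFormula (Instances.isFF_jgen N) (Instances.isSeparable_jgen N) gL)
    (hHk : Defs.HurwitzFormula (FkBasics.isFF k N) hsep₂ gk)
    (hn : Module.finrank Kb⟮jgen N⟯ ↥(modularFunctionFieldBar N)
      = Module.finrank k⟮FkBasics.jk k N⟯ ↥(modularFunctionFieldFullC k N))
    (hC : ((Module.finrank Kb⟮jgen N⟯ ↥(modularFunctionFieldBar N) : ℤ)
          - ((FibreSep.zeros (Instances.isFF_jgen N) (Instances.isSeparable_jgen N) 0).card : ℤ))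
        + ((Module.finrank Kb⟮jgen N⟯ ↥(modularFunctionFieldBar N) : ℤ)
          - ((FibreSep.zeros (Instances.isFF_jgen N) (Instances.isSeparable_jgen N) 1728).card : ℤ))
      ≤ ∑ Q ∈ FibreSep.zeros (FkBasics.isFF k N) hsep₂ 0,
          (Defs.diffExp (FkBasics.isFF k N) hsep₂ Q : ℤ))
    (hcp : (FibreSep.poles (FkBasics.isFF k N) hsep₂).card
      ≤ (FibreSep.poles (Instances.isFF_jgen N) (Instances.isSeparable_jgen N)).card) :
    gL ≤ gk :=
  GenusIneqX0.genus_le_of_collision N hsep₂ hHL hHk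
    (fun _ c hP => (DiffLower.diffExp_eq_of_charZero_zero _ _ c hP).le)
    (fun _ hP => (DiffLower.diffExp_eq_of_charZero_pole _ _ hP).le)
    (fun _ hQ => DiffLower.sub_one_le_diffExp_pole _ hsep₂ hQ)
    hn hC hcp

end X0

end Fermat.Agent.S18.B.GenusIneqDiff
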