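import Mathlib
import Fermat.Agent.S18.B.GenusIneqDiff

/-!
# PROJECT H (S18), block B, slice H-B7: `g(F_L) ≤ g(F_k)` for `X₀(N)`, one call

The case split `1728 ≠ 0` / `1728 = 0` in `k` of `GenusIneqDiff.genus_le_X0_of_ne` and
`GenusIneqDiff.genus_le_X0_of_collision`, so that the final assembly needs a single theorem:
the output of block C (`hC`) is only required when `1728 = 0` in `k`, and the two cardinality
inequalities over `0` and `1728` only when `1728 ≠ 0`.
-/

set_option autoImplicit false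

namespace Fermat.Agent.S18.B.GenusLe

open AlgebraicCurve IntermediateField ModularCurve Fermat.Agent.S24.FF
open Fermat.Agent.S18.A Fermat.Agent.S18.B
open Fermat.Agent.S24.DegreeAlg (jgen)

local notation "Kb" => AlgebraicClosure ℚ

variable (N : ℕ) [NeZero N] {k : Type*} [Field k] [IsAlgClosed k]

/-- **`g(F_L) ≤ g(F_k)` for `X₀(N)`.** -/
theorem genus_le_X0
    (hsep₂ : Algebra.IsSeparable k⟮FkBasics.jk k N⟯ ↥(modularFunctionFieldFullC k N))
    {gL gk : ℕ}
    (hHL : Defs.HurwitzFormula (Instances.isFF_jgen N) (Instances.isSeparable_jgen N) gL)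
    (hHk : Defs.HurwitzFormula (FkBasics.isFF k N) hsep₂ gk)
    (hn : Module.finrank Kb⟮jgen N⟯ ↥(modularFunctionFieldBar N)
      = Module.finrank k⟮FkBasics.jk k N⟯ ↥(modularFunctionFieldFullC k N))
    (hc0 : (1728 : k) ≠ 0 → (FibreSep.zeros (FkBasics.isFF k N) hsep₂ 0).card
      ≤ (FibreSep.zeros (Instances.isFF_jgen N) (Instances.isSeparable_jgen N) 0).card)
    (hc1728 : (1728 : k) ≠ 0 → (FibreSep.zeros (FkBasics.isFF k N) hsep₂ 1728).card
      ≤ (FibreSep.zeros (Instances.isFF_jgen N) (Instances.isSeparable_jgen N) 1728).card)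
    (hcp : (FibreSep.poles (FkBasics.isFF k N) hsep₂).card
      ≤ (FibreSep.poles (Instances.isFF_jgen N) (Instances.isSeparable_jgen N)).card)
    (hC : (1728 : k) = 0 →
      ((Module.finrank Kb⟮jgen N⟯ ↥(modularFunctionFieldBar N) : ℤ)
          - ((FibreSep.zeros (Instances.isFF_jgen N) (Instances.isSeparable_jgen N) 0).card : ℤ))
        + ((Module.finrank Kb⟮jgen N⟯ ↥(modularFunctionFieldBar N) : ℤ)
          - ((FibreSep.zeros (Instances.isFF_jgen N) (Instances.isSeparable_jgen N) 1728).card : ℤ))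
      ≤ ∑ Q ∈ FibreSep.zeros (FkBasics.isFF k N) hsep₂ 0,
          (Defs.diffExp (FkBasics.isFF k N) hsep₂ Q : ℤ)) :
    gL ≤ gk := by
  by_cases h : (1728 : k) = 0
  · exact GenusIneqDiff.genus_le_X0_of_collision N hsep₂ hHL hHk hn (hC h) hcp
  · exact GenusIneqDiff.genus_le_X0_of_ne N hsep₂ hHL hHk hn h (hc0 h) (hc1728 h) hcp

/-- `1728 = 2⁶ · 3³` vanishes in `k` exactly in characteristic `2` and `3`. -/
theorem ofNat_1728_ne_zero {p : ℕ} [CharP k p] (h2 : p ≠ 2) (h3 : p ≠ 3) : (1728 : k) ≠ 0 := by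
  have h1728 : (1728 : k) = 2 ^ 6 * 3 ^ 3 := by norm_num
  have hp2 : (2 : k) ≠ 0 := by
    intro h
    have h' : ((2 : ℕ) : k) = 0 := by exact_mod_cast h
    have hdvd := (CharP.cast_eq_zero_iff k p 2).mp h'
    rcases (Nat.dvd_prime Nat.prime_two).mp hdvd with h1 | h1
    · exact CharP.char_ne_one k p h1
    · exact h2 h1
  have hp3 : (3 : k) ≠ 0 := by
    intro h
    have h' : ((3 : ℕ) : k) = 0 := by exact_mod_cast h
    have hdvd := (CharP.cast_eq_zero_iff k p 3).mp h'
    rcases (Nat.dvd_prime Nat.prime_three).mp hdvd with h1 | h1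
    · exact CharP.char_ne_one k p h1
    · exact h3 h1
  rw [h1728]
  exact mul_ne_zero (pow_ne_zero _ hp2) (pow_ne_zero _ hp3)

end Fermat.Agent.S18.B.GenusLe
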