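import Mathlib

/-!
# PROJECT H (S18), block B, slice H-B2: the abstract fibre lemma

Pure `Finsupp` bookkeeping.  `r : α → β` (a reduction map on places), `D₁ : α →₀ ℤ`,
`D₂ : β →₀ ℤ` (divisors of `x₁ - c₁` and of `x₂ - c₂`) with `D₁.mapDomain r = D₂`.  If the mass of
the negative part does not drop (`tot (np D₁) ≤ tot (np D₂)`: the degree of the pole divisor
downstairs is at least the one upstairs), then

* `mapDomain_pp_np` : `r_*` maps positive part to positive part and negative part to negative part;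
* `tot_np_eq`       : the two masses are equal;
* `sum_pp_fibre`, `sum_np_fibre` : the fibre identity `∑_{r a = b} max (±D₁ a) 0 = max (±D₂ b) 0`;
* `pos_map_of_pos`, `neg_map_of_neg`, `exists_pos_of_pos`, `exists_neg_of_neg` : zeros go to zeros,
  poles to poles, and every zero (pole) downstairs is hit;
* `card_pos_le`, `card_neg_le` : the number of zeros (poles) does not increase under `r`.

Key point: `Δ := r_*(np D₁) - np D₂ = r_*(pp D₁) - pp D₂` is pointwise `≥ 0` (where `np D₂ b > 0`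
one has `pp D₂ b = 0`), and its total mass is `≤ 0`.
-/

set_option autoImplicit false

namespace Fermat.Agent.S18.B.FibreAbstract

open Finsupp

variable {α β : Type*}

/-- positive part of an integer valued finitely supported function -/
noncomputable def pp (D : α →₀ ℤ) : α →₀ ℤ := D.mapRange (fun n => max n 0) (by simp)

/-- negative part of an integer valued finitely supported function -/
noncomputable def np (D : α →₀ ℤ) : α →₀ ℤ := D.mapRange (fun n => max (-n) 0) (by simp)

@[simp] theorem pp_apply (D : α →₀ ℤ) (a : α) : pp D a = max (D a) 0 := rfl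
@[simp] theorem np_apply (D : α →₀ ℤ) (a : α) : np D a = max (-(D a)) 0 := rfl

theorem pp_sub_np (D : α →₀ ℤ) : pp D - np D = D := by
  ext a
  simp only [Finsupp.coe_sub, Pi.sub_apply, pp_apply, np_apply]
  rcases le_total (D a) 0 with h | h
  · rw [max_eq_right h, max_eq_left (by omega)]; ring
  · rw [max_eq_left h, max_eq_right (by omega)]; ring

theorem pp_nonneg (D : α →₀ ℤ) (a : α) : 0 ≤ pp D a := le_max_right _ _
theorem np_nonneg (D : α →₀ ℤ) (a : α) : 0 ≤ np D a := le_max_right _ _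

theorem pp_eq_zero_of_np_pos (D : α →₀ ℤ) {a : α} (h : 0 < np D a) : pp D a = 0 := by
  simp only [np_apply, pp_apply] at h ⊢
  have : D a < 0 := by
    by_contra hc
    rw [max_eq_right (by omega)] at h
    exact lt_irrefl _ h
  exact max_eq_right this.le

/-- the total mass -/
noncomputable def tot : (α →₀ ℤ) →+ ℤ := Finsupp.liftAddHom fun _ => AddMonoidHom.id ℤ

theorem tot_apply (D : α →₀ ℤ) : tot D = D.sum fun _ n => n := rfl

theorem tot_eq_sum (D : α →₀ ℤ) : tot D = ∑ a ∈ D.support, D a := rfl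

theorem tot_single (a : α) (n : ℤ) : tot (Finsupp.single a n) = n := by
  simp [tot]

theorem tot_mapDomain (r : α → β) (D : α →₀ ℤ) : tot (D.mapDomain r) = tot D := by
  induction D using Finsupp.induction with
  | zero => simp
  | single_add a n D _ _ ih =>
    rw [Finsupp.mapDomain_add, map_add, map_add, ih, Finsupp.mapDomain_single, tot_single, tot_single]

theorem tot_eq_sum_of_subset (D : α →₀ ℤ) (s : Finset α) (hs : D.support ⊆ s) :
    tot D = ∑ a ∈ s, D a := by
  rw [tot_eq_sum]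
  exact Finset.sum_subset hs fun a _ ha => by simpa using ha

/-- pointwise formula for `mapDomain` -/
theorem mapDomain_apply_eq_sum [DecidableEq β] (r : α → β) (D : α →₀ ℤ) (b : β) :
    D.mapDomain r b = ∑ a ∈ D.support.filter (fun a => r a = b), D a := by
  rw [Finsupp.mapDomain, Finsupp.sum_apply, Finsupp.sum, Finset.sum_filter]
  refine Finset.sum_congr rfl fun a _ => ?_
  rw [Finsupp.single_apply]

theorem mapDomain_nonneg (r : α → β) (D : α →₀ ℤ) (hD : ∀ a, 0 ≤ D a) (b : β) :
    0 ≤ D.mapDomain r b := by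
  classical
  rw [mapDomain_apply_eq_sum]
  exact Finset.sum_nonneg fun a _ => hD a

theorem eq_zero_of_nonneg_of_tot_le (E : β →₀ ℤ) (h0 : ∀ b, 0 ≤ E b) (ht : tot E ≤ 0) : E = 0 := by
  ext b
  rw [tot_eq_sum] at ht
  have hs : ∑ b ∈ E.support, E b = 0 := le_antisymm ht (Finset.sum_nonneg fun b _ => h0 b)
  by_cases hb : b ∈ E.support
  · exact (Finset.sum_eq_zero_iff_of_nonneg fun b _ => h0 b).mp hs b hb
  · simpa using hb

/-- **The abstract fibre lemma.**  If `r_* D₁ = D₂` and the mass of the negative part does not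
drop, then `r_*` maps positive part to positive part and negative part to negative part. -/
theorem mapDomain_pp_np (r : α → β) (D₁ : α →₀ ℤ) (D₂ : β →₀ ℤ)
    (h : D₁.mapDomain r = D₂) (hle : tot (np D₁) ≤ tot (np D₂)) :
    (pp D₁).mapDomain r = pp D₂ ∧ (np D₁).mapDomain r = np D₂ := by
  set U := (pp D₁).mapDomain r with hU
  set V := (np D₁).mapDomain r with hV
  have hUV : U - V = pp D₂ - np D₂ := by
    rw [hU, hV, ← Finsupp.mapDomain.addMonoidHom_apply, ← Finsupp.mapDomain.addMonoidHom_apply,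
      ← map_sub, pp_sub_np, pp_sub_np, Finsupp.mapDomain.addMonoidHom_apply, h]
  have hΔ : V - np D₂ = U - pp D₂ := by
    have := hUV
    rw [sub_eq_sub_iff_add_eq_add] at this ⊢
    rw [add_comm, ← this, add_comm]
  have hU0 : ∀ b, 0 ≤ U b := mapDomain_nonneg r _ (pp_nonneg D₁)
  have hV0 : ∀ b, 0 ≤ V b := mapDomain_nonneg r _ (np_nonneg D₁)
  have hΔ0 : ∀ b, 0 ≤ (V - np D₂) b := by
    intro b
    rcases (np_nonneg D₂ b).eq_or_lt with h0 | hpos
    · rw [Finsupp.sub_apply, ← h0, sub_zero]; exact hV0 b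
    · rw [hΔ, Finsupp.sub_apply, pp_eq_zero_of_np_pos D₂ hpos, sub_zero]; exact hU0 b
  have htot : tot (V - np D₂) ≤ 0 := by
    rw [map_sub, hV, tot_mapDomain]; omega
  have hzero := eq_zero_of_nonneg_of_tot_le _ hΔ0 htot
  refine ⟨?_, sub_eq_zero.mp hzero⟩
  rw [hzero] at hΔ
  exact (sub_eq_zero.mp hΔ.symm)

theorem tot_np_eq (r : α → β) (D₁ : α →₀ ℤ) (D₂ : β →₀ ℤ)
    (h : D₁.mapDomain r = D₂) (hle : tot (np D₁) ≤ tot (np D₂)) : tot (np D₁) = tot (np D₂) := by
  rw [← (mapDomain_pp_np r D₁ D₂ h hle).2, tot_mapDomain]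

/-- fibre identity, zero part -/
theorem sum_pp_fibre [DecidableEq β] (r : α → β) (D₁ : α →₀ ℤ) (D₂ : β →₀ ℤ)
    (h : D₁.mapDomain r = D₂) (hle : tot (np D₁) ≤ tot (np D₂)) (b : β) :
    ∑ a ∈ D₁.support.filter (fun a => r a = b), max (D₁ a) 0 = max (D₂ b) 0 := by
  have h1 := congrArg (fun E => E b) (mapDomain_pp_np r D₁ D₂ h hle).1
  simp only [pp_apply] at h1
  rw [← h1, mapDomain_apply_eq_sum]
  symm
  refine Finset.sum_subset ?_ ?_
  · intro a ha
    rw [Finset.mem_filter] at ha ⊢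
    refine ⟨?_, ha.2⟩
    have := ha.1
    rw [Finsupp.mem_support_iff] at this ⊢
    intro h0
    apply this
    rw [pp_apply, h0]; rfl
  · intro a _ ha
    by_contra hne
    apply ha
    rw [Finset.mem_filter] at *
    refine ⟨?_, (by tauto)⟩
    rw [Finsupp.mem_support_iff]
    exact hne

/-- fibre identity, pole part -/
theorem sum_np_fibre [DecidableEq β] (r : α → β) (D₁ : α →₀ ℤ) (D₂ : β →₀ ℤ)
    (h : D₁.mapDomain r = D₂) (hle : tot (np D₁) ≤ tot (np D₂)) (b : β) :
    ∑ a ∈ D₁.support.filter (fun a => r a = b), max (-(D₁ a)) 0 = max (-(D₂ b)) 0 := by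
  have h1 := congrArg (fun E => E b) (mapDomain_pp_np r D₁ D₂ h hle).2
  simp only [np_apply] at h1
  rw [← h1, mapDomain_apply_eq_sum]
  symm
  refine Finset.sum_subset ?_ ?_
  · intro a ha
    rw [Finset.mem_filter] at ha ⊢
    refine ⟨?_, ha.2⟩
    have := ha.1
    rw [Finsupp.mem_support_iff] at this ⊢
    intro h0
    apply this
    rw [np_apply, h0]; rfl
  · intro a _ ha
    by_contra hne
    apply ha
    rw [Finset.mem_filter] at *
    refine ⟨?_, (by tauto)⟩
    rw [Finsupp.mem_support_iff]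
    exact hne

/-- zeros map to zeros -/
theorem pos_map_of_pos (r : α → β) (D₁ : α →₀ ℤ) (D₂ : β →₀ ℤ)
    (h : D₁.mapDomain r = D₂) (hle : tot (np D₁) ≤ tot (np D₂)) {a : α} (ha : 0 < D₁ a) :
    0 < D₂ (r a) := by
  classical
  have h1 := sum_pp_fibre r D₁ D₂ h hle (r a)
  have hmem : a ∈ D₁.support.filter (fun a' => r a' = r a) := by
    rw [Finset.mem_filter, Finsupp.mem_support_iff]
    exact ⟨ha.ne', rfl⟩
  have h2 : max (D₁ a) 0 ≤ ∑ a' ∈ D₁.support.filter (fun a' => r a' = r a), max (D₁ a') 0 :=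
    Finset.single_le_sum (f := fun a' => max (D₁ a') 0) (fun a' _ => le_max_right _ _) hmem
  rw [h1, max_eq_left ha.le] at h2
  by_contra hc
  rw [max_eq_right (by omega)] at h2
  omega

/-- poles map to poles -/
theorem neg_map_of_neg (r : α → β) (D₁ : α →₀ ℤ) (D₂ : β →₀ ℤ)
    (h : D₁.mapDomain r = D₂) (hle : tot (np D₁) ≤ tot (np D₂)) {a : α} (ha : D₁ a < 0) :
    D₂ (r a) < 0 := by
  classical
  have h1 := sum_np_fibre r D₁ D₂ h hle (r a)
  have hmem : a ∈ D₁.support.filter (fun a' => r a' = r a) := by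
    rw [Finset.mem_filter, Finsupp.mem_support_iff]
    exact ⟨ha.ne, rfl⟩
  have h2 : max (-(D₁ a)) 0 ≤ ∑ a' ∈ D₁.support.filter (fun a' => r a' = r a), max (-(D₁ a')) 0 :=
    Finset.single_le_sum (f := fun a' => max (-(D₁ a')) 0) (fun a' _ => le_max_right _ _) hmem
  rw [h1, max_eq_left (by omega)] at h2
  by_contra hc
  rw [max_eq_right (by omega)] at h2
  omega

/-- every zero downstairs is hit by a zero upstairs -/
theorem exists_pos_of_pos (r : α → β) (D₁ : α →₀ ℤ) (D₂ : β →₀ ℤ)
    (h : D₁.mapDomain r = D₂) (hle : tot (np D₁) ≤ tot (np D₂)) {b : β} (hb : 0 < D₂ b) :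
    ∃ a, r a = b ∧ 0 < D₁ a := by
  classical
  have h1 := sum_pp_fibre r D₁ D₂ h hle b
  rw [max_eq_left hb.le] at h1
  by_contra hc
  push Not at hc
  have : ∑ a ∈ D₁.support.filter (fun a => r a = b), max (D₁ a) 0 = 0 := by
    refine Finset.sum_eq_zero fun a ha => ?_
    rw [Finset.mem_filter] at ha
    exact max_eq_right (hc a ha.2)
  omega

/-- every pole downstairs is hit by a pole upstairs -/
theorem exists_neg_of_neg (r : α → β) (D₁ : α →₀ ℤ) (D₂ : β →₀ ℤ)
    (h : D₁.mapDomain r = D₂) (hle : tot (np D₁) ≤ tot (np D₂)) {b : β} (hb : D₂ b < 0) :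
    ∃ a, r a = b ∧ D₁ a < 0 := by
  classical
  have h1 := sum_np_fibre r D₁ D₂ h hle b
  rw [max_eq_left (by omega)] at h1
  by_contra hc
  push Not at hc
  have : ∑ a ∈ D₁.support.filter (fun a => r a = b), max (-(D₁ a)) 0 = 0 := by
    refine Finset.sum_eq_zero fun a ha => ?_
    rw [Finset.mem_filter] at ha
    exact max_eq_right (by have := hc a ha.2; omega)
  omega

/-- the number of zeros does not increase under `r` -/
theorem card_pos_le [DecidableEq β] (r : α → β) (D₁ : α →₀ ℤ) (D₂ : β →₀ ℤ)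
    (h : D₁.mapDomain r = D₂) (hle : tot (np D₁) ≤ tot (np D₂)) :
    (D₂.support.filter fun b => 0 < D₂ b).card ≤ (D₁.support.filter fun a => 0 < D₁ a).card := by
  classical
  refine Finset.card_le_card_of_surjOn r ?_
  intro b hb
  rw [Finset.mem_coe, Finset.mem_filter] at hb
  obtain ⟨a, rfl, ha⟩ := exists_pos_of_pos r D₁ D₂ h hle hb.2
  refine ⟨a, ?_, rfl⟩
  rw [Finset.mem_coe, Finset.mem_filter, Finsupp.mem_support_iff]
  exact ⟨ha.ne', ha⟩

/-- the number of poles does not increase under `r` -/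
theorem card_neg_le [DecidableEq β] (r : α → β) (D₁ : α →₀ ℤ) (D₂ : β →₀ ℤ)
    (h : D₁.mapDomain r = D₂) (hle : tot (np D₁) ≤ tot (np D₂)) :
    (D₂.support.filter fun b => D₂ b < 0).card ≤ (D₁.support.filter fun a => D₁ a < 0).card := by
  classical
  refine Finset.card_le_card_of_surjOn r ?_
  intro b hb
  rw [Finset.mem_coe, Finset.mem_filter] at hb
  obtain ⟨a, rfl, ha⟩ := exists_neg_of_neg r D₁ D₂ h hle hb.2
  refine ⟨a, ?_, rfl⟩
  rw [Finset.mem_coe, Finset.mem_filter, Finsupp.mem_support_iff]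
  exact ⟨ha.ne, ha⟩

end Fermat.Agent.S18.B.FibreAbstract
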