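import Mathlib
import Fermat.Agent.S18.B.Basic

/-!
# PROJECT H (S18), block B, slice H-B5: the integral functions `j - c`, `c ∈ A`

For `c : A` the Laurent series `jSub A c = J - c` has coefficients in `A`; its image in `ℚ̄((q))` is
`jgen N - c` (an element of `FL = modularFunctionFieldBar N`) and its reduction in `k((q))` is
`jk k N - c̄` (a nonzero element of `Fk = modularFunctionFieldFullC k N`).  Hence the second clause
of `IsPlaceReductionAlong` gives

`reduction_div_jSub` : `r_* div (jgen N - c) = div (jk k N - c̄)` for every `c : A`.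
-/

set_option autoImplicit false

noncomputable section

namespace Fermat.Agent.S18.B.IntegralJ

open ModularCurve HahnSeries AlgebraicCurve Fermat.Agent.S18.B.Basic
open Fermat.Agent.S24.DegreeAlg (jgen)

local notation "Kb" => AlgebraicClosure ℚ

variable (A : ValuationSubring Kb) (N : ℕ) [NeZero N]

/-- `j - c` as a Laurent series with coefficients in `A`. -/
def jSub (c : A) : LaurentSeries A := jqModC A - HahnSeries.C c

theorem coeffMap_subtype_jSub (c : A) :
    coeffMap A.subtype (jSub A c) = jqModC Kb - HahnSeries.C (c : Kb) := by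
  rw [jSub, map_sub, coeffMap_jqModC, coeffMap_C]
  rfl

theorem coeffMap_residue_jSub (c : A) :
    coeffMap (IsLocalRing.residue A) (jSub A c)
      = jqModC (IsLocalRing.ResidueField A) - HahnSeries.C (IsLocalRing.residue A c) := by
  rw [jSub, map_sub, coeffMap_jqModC, coeffMap_C]

theorem coe_jgen_sub (c : Kb) :
    ((jgen N - algebraMap Kb ↥(modularFunctionFieldBar N) c : ↥(modularFunctionFieldBar N)) :
        LaurentSeries Kb) = jqModC Kb - HahnSeries.C c := by
  rw [AddSubgroupClass.coe_sub, coe_jgen_eq, ← algebraMap_eq_C]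
  rfl

theorem coe_jk_sub {k : Type*} [Field k] (c : k) :
    ((jk k N - algebraMap k ↥(modularFunctionFieldFullC k N) c : ↥(modularFunctionFieldFullC k N)) :
        LaurentSeries k) = jqModC k - HahnSeries.C c := by
  rw [AddSubgroupClass.coe_sub, coe_jk, ← algebraMap_eq_C]
  rfl

theorem jqModC_sub_C_ne_zero {k : Type*} [Field k] (c : k) : jqModC k - HahnSeries.C c ≠ 0 := by
  intro h
  have h1 := congrArg (fun f => f.coeff (-1)) h
  simp only [HahnSeries.coeff_sub, HahnSeries.coeff_zero] at h1
  rw [coeff_jqModC_neg_one] at h1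
  have h2 : (HahnSeries.C c : LaurentSeries k).coeff (-1) = 0 := by
    show (HahnSeries.single (0 : ℤ) c).coeff (-1) = 0
    exact HahnSeries.coeff_single_of_ne (by norm_num)
  rw [h2, sub_zero] at h1
  exact one_ne_zero h1

theorem coeffMap_subtype_jSub_mem (c : A) :
    coeffMap A.subtype (jSub A c) ∈ modularFunctionFieldBar N := by
  rw [coeffMap_subtype_jSub, ← coe_jgen_sub N (c : Kb)]
  exact SetLike.coe_mem _

theorem coeffMap_residue_jSub_mem (c : A) :
    coeffMap (IsLocalRing.residue A) (jSub A c)
      ∈ modularFunctionFieldFullC (IsLocalRing.ResidueField A) N := by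
  rw [coeffMap_residue_jSub, ← coe_jk_sub N (IsLocalRing.residue A c)]
  exact SetLike.coe_mem _

set_option synthInstance.maxHeartbeats 400000 in
/-- **`r_* div (j - c) = div (j̄ - c̄)`** for every `c ∈ A`, straight from the hypothesis. -/
theorem reduction_div_jSub
    {r : Place Kb ↥(modularFunctionFieldBar N) →
      Place (IsLocalRing.ResidueField A) ↥(modularFunctionFieldFullC (IsLocalRing.ResidueField A) N)}
    (hr : IsPlaceReductionAlong A (IsLocalRing.residue A) N r) (c : A)
    (D : Divisor Kb ↥(modularFunctionFieldBar N))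
    (hD : ∀ P, D P = P.ord (jgen N - algebraMap Kb ↥(modularFunctionFieldBar N) (c : Kb)))
    (Q : Place (IsLocalRing.ResidueField A)
      ↥(modularFunctionFieldFullC (IsLocalRing.ResidueField A) N)) :
    Finsupp.mapDomain r D Q
      = Q.ord (jk (IsLocalRing.ResidueField A) N
          - algebraMap (IsLocalRing.ResidueField A) _ (IsLocalRing.residue A c)) := by
  have hne : coeffMap (IsLocalRing.residue A) (jSub A c) ≠ 0 := by
    rw [coeffMap_residue_jSub]
    exact jqModC_sub_C_ne_zero _
  have h1 : (⟨coeffMap A.subtype (jSub A c), coeffMap_subtype_jSub_mem A N c⟩ :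
      ↥(modularFunctionFieldBar N)) = jgen N - algebraMap Kb _ (c : Kb) :=
    Subtype.ext ((coeffMap_subtype_jSub A c).trans (coe_jgen_sub N (c : Kb)).symm)
  have h2 : (⟨coeffMap (IsLocalRing.residue A) (jSub A c), coeffMap_residue_jSub_mem A N c⟩ :
      ↥(modularFunctionFieldFullC (IsLocalRing.ResidueField A) N))
        = jk (IsLocalRing.ResidueField A) N - algebraMap _ _ (IsLocalRing.residue A c) :=
    Subtype.ext ((coeffMap_residue_jSub A c).trans (coe_jk_sub N (IsLocalRing.residue A c)).symm)
  have := hr.2 (jSub A c) (coeffMap_subtype_jSub_mem A N c) (coeffMap_residue_jSub_mem A N c) hne D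
    (fun P => by rw [hD P, h1]) Q
  rw [this, h2]

end Fermat.Agent.S18.B.IntegralJ
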