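import Mathlib
import Fermat.Agent.S18.B.FibreAbstract
import Fermat.Agent.S18.B.IntegralJ
import Fermat.Agent.S18.B.FkBasics
import Fermat.Agent.S18.A.FibreSep
import Fermat.Agent.S18.A.Instances
import Fermat.Agent.S18.ResidueBasics
import Fermat.Agent.S20.CountFinal

/-!
# PROJECT H (S18), block B, slice H-B6: the fibre identity for `X₀(N)`

* `Fibre.compare` (abstract): two function fields `(K₁, F₁, x₁)`, `(K₂, F₂, x₂)` over algebraically
  closed fields with separating elements, a map of places `r` with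
  `r_* div(x₁ - c₁) = div(x₂ - c₂)` and `[F₁ : K₁(x₁)] ≤ [F₂ : K₂(x₂)]`.  Then the degrees are
  equal, and the number of zeros of `x₂ - c₂` (poles of `x₂`) is at most the number of zeros of
  `x₁ - c₁` (poles of `x₁`); zeros (poles) map onto zeros (poles) and the fibre identity
  `e_Q = ∑_{r P = Q} e_P` holds.
* the instantiation for `F_L = ℚ̄(X₀(N))`, `F_k = k(X₀(N))`, `k` the residue field of a valuation
  ring `A` of `ℚ̄` over `ℓ ∤ N`, `r = placeReductionModL h`: `finrank_eq`, `card_zeros_le`,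
  `card_poles_le` in exactly the shapes consumed by `B/GenusIneqX0.lean`.
-/

set_option autoImplicit false
set_option linter.style.haveILetI false

namespace Fermat.Agent.S18.B.FibreX0

open AlgebraicCurve IntermediateField Fermat.Agent.S24.FF Fermat.Agent.S24.Ord
open Fermat.Agent.S18.A Fermat.Agent.S18.B.FibreAbstract

section Abstract

universe u₁ w₁ u₂ w₂

variable {K₁ : Type w₁} {F₁ : Type u₁} [Field K₁] [Field F₁] [Algebra K₁ F₁] [IsAlgClosed K₁]
variable {K₂ : Type w₂} {F₂ : Type u₂} [Field K₂] [Field F₂] [Algebra K₂ F₂] [IsAlgClosed K₂]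
variable {x₁ : F₁} {x₂ : F₂}

/-- a place where `x - a` has negative order is a pole of `x` -/
theorem ord_neg_of_ord_sub_neg {K : Type*} {F : Type*} [Field K] [Field F] [Algebra K F]
    {x : F} (v : Place K F) (a : K) (h : v.ord (x - algebraMap K F a) < 0) : v.ord x < 0 := by
  by_contra hcon
  rw [not_lt] at hcon
  have h0 : x - algebraMap K F a ≠ 0 := by
    intro h0
    rw [h0, Place.ord_zero] at h
    exact lt_irrefl _ h
  have hmem : x ∈ v.toValuationSubring := by
    rcases eq_or_ne x 0 with rfl | hx0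
    · exact zero_mem _
    · exact (mem_iff v x).mpr ((ord_nonneg_iff v hx0).mp hcon)
  have hmem' : x - algebraMap K F a ∈ v.toValuationSubring :=
    sub_mem hmem (v.algebraMap_mem' a)
  have := (ord_nonneg_iff v h0).mpr ((mem_iff v _).mp hmem')
  omega

/-- the mass of the negative part of `div (x - a)` is the degree -/
theorem tot_np_divSub (hx : IsFF K₁ x₁) (hsep : Algebra.IsSeparable K₁⟮x₁⟯ F₁) (a : K₁) :
    tot (np (FibreSep.divSub hx hsep a)) = (Module.finrank K₁⟮x₁⟯ F₁ : ℤ) := by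
  classical
  rw [tot_eq_sum_of_subset _ (FibreSep.poles hx hsep), ← FibreSep.sum_poles hx hsep]
  · refine Finset.sum_congr rfl fun v hv => ?_
    rw [FibreSep.mem_poles_iff_ord_neg] at hv
    rw [np_apply, FibreSep.divSub_apply, FibreSep.ord_sub_of_ord_neg v a hv]
    exact max_eq_left (by omega)
  · intro v hv
    rw [Finsupp.mem_support_iff, np_apply, FibreSep.divSub_apply] at hv
    rw [FibreSep.mem_poles_iff_ord_neg]
    apply ord_neg_of_ord_sub_neg v a
    by_contra hcon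
    rw [not_lt] at hcon
    exact hv (max_eq_right (by omega))

theorem filter_pos_divSub (hx : IsFF K₁ x₁) (hsep : Algebra.IsSeparable K₁⟮x₁⟯ F₁) (a : K₁) :
    (FibreSep.divSub hx hsep a).support.filter (fun v => 0 < FibreSep.divSub hx hsep a v)
      = FibreSep.zeros hx hsep a := by
  ext v
  rw [Finset.mem_filter, Finsupp.mem_support_iff, FibreSep.divSub_apply,
    FibreSep.mem_zeros_iff_ord_pos]
  exact ⟨fun h => h.2, fun h => ⟨h.ne', h⟩⟩

theorem filter_neg_divSub (hx : IsFF K₁ x₁) (hsep : Algebra.IsSeparable K₁⟮x₁⟯ F₁) (a : K₁) :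
    (FibreSep.divSub hx hsep a).support.filter (fun v => FibreSep.divSub hx hsep a v < 0)
      = FibreSep.poles hx hsep := by
  ext v
  rw [Finset.mem_filter, Finsupp.mem_support_iff, FibreSep.divSub_apply,
    FibreSep.mem_poles_iff_ord_neg]
  constructor
  · intro h
    exact ord_neg_of_ord_sub_neg v a h.2
  · intro h
    rw [FibreSep.ord_sub_of_ord_neg v a h]
    exact ⟨h.ne, h⟩

/-- **The fibre comparison.** -/
theorem compare (hx₁ : IsFF K₁ x₁) (hsep₁ : Algebra.IsSeparable K₁⟮x₁⟯ F₁)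
    (hx₂ : IsFF K₂ x₂) (hsep₂ : Algebra.IsSeparable K₂⟮x₂⟯ F₂)
    (r : Place K₁ F₁ → Place K₂ F₂) (c₁ : K₁) (c₂ : K₂)
    (h : ∀ Q : Place K₂ F₂, Finsupp.mapDomain r (FibreSep.divSub hx₁ hsep₁ c₁) Q
      = Q.ord (x₂ - algebraMap K₂ F₂ c₂))
    (hle : Module.finrank K₁⟮x₁⟯ F₁ ≤ Module.finrank K₂⟮x₂⟯ F₂) :
    Module.finrank K₁⟮x₁⟯ F₁ = Module.finrank K₂⟮x₂⟯ F₂ ∧
      (FibreSep.zeros hx₂ hsep₂ c₂).card ≤ (FibreSep.zeros hx₁ hsep₁ c₁).card ∧
      (FibreSep.poles hx₂ hsep₂).card ≤ (FibreSep.poles hx₁ hsep₁).card := by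
  classical
  have h' : (FibreSep.divSub hx₁ hsep₁ c₁).mapDomain r = FibreSep.divSub hx₂ hsep₂ c₂ := by
    ext Q
    rw [h Q, FibreSep.divSub_apply]
  have hle' : tot (np (FibreSep.divSub hx₁ hsep₁ c₁)) ≤ tot (np (FibreSep.divSub hx₂ hsep₂ c₂)) := by
    rw [tot_np_divSub, tot_np_divSub]
    exact_mod_cast hle
  refine ⟨?_, ?_, ?_⟩
  · have := tot_np_eq r _ _ h' hle'
    rw [tot_np_divSub, tot_np_divSub] at this
    exact_mod_cast this
  · have := card_pos_le r _ _ h' hle'
    rwa [filter_pos_divSub, filter_pos_divSub] at this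
  · have := card_neg_le r _ _ h' hle'
    rwa [filter_neg_divSub, filter_neg_divSub] at this

open Classical in
/-- zeros map to zeros, surjectively, with the fibre identity -/
theorem fibre_identity (hx₁ : IsFF K₁ x₁) (hsep₁ : Algebra.IsSeparable K₁⟮x₁⟯ F₁)
    (hx₂ : IsFF K₂ x₂) (hsep₂ : Algebra.IsSeparable K₂⟮x₂⟯ F₂)
    (r : Place K₁ F₁ → Place K₂ F₂) (c₁ : K₁) (c₂ : K₂)
    (h : ∀ Q : Place K₂ F₂, Finsupp.mapDomain r (FibreSep.divSub hx₁ hsep₁ c₁) Q
      = Q.ord (x₂ - algebraMap K₂ F₂ c₂))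
    (hle : Module.finrank K₁⟮x₁⟯ F₁ ≤ Module.finrank K₂⟮x₂⟯ F₂) :
    (∀ P ∈ FibreSep.zeros hx₁ hsep₁ c₁, r P ∈ FibreSep.zeros hx₂ hsep₂ c₂) ∧
      (∀ Q ∈ FibreSep.zeros hx₂ hsep₂ c₂, ∃ P ∈ FibreSep.zeros hx₁ hsep₁ c₁, r P = Q) ∧
      (∀ Q ∈ FibreSep.zeros hx₂ hsep₂ c₂,
        ∑ P ∈ (FibreSep.zeros hx₁ hsep₁ c₁).filter (fun P => r P = Q),
          P.ord (x₁ - algebraMap K₁ F₁ c₁) = Q.ord (x₂ - algebraMap K₂ F₂ c₂)) := by
  classical
  have h' : (FibreSep.divSub hx₁ hsep₁ c₁).mapDomain r = FibreSep.divSub hx₂ hsep₂ c₂ := by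
    ext Q
    rw [h Q, FibreSep.divSub_apply]
  have hle' : tot (np (FibreSep.divSub hx₁ hsep₁ c₁)) ≤ tot (np (FibreSep.divSub hx₂ hsep₂ c₂)) := by
    rw [tot_np_divSub, tot_np_divSub]
    exact_mod_cast hle
  refine ⟨?_, ?_, ?_⟩
  · intro P hP
    rw [FibreSep.mem_zeros_iff_ord_pos] at hP ⊢
    have := pos_map_of_pos r _ _ h' hle' (a := P) (by rwa [FibreSep.divSub_apply])
    rwa [FibreSep.divSub_apply] at this
  · intro Q hQ
    rw [FibreSep.mem_zeros_iff_ord_pos] at hQ
    obtain ⟨P, hP, hPpos⟩ := exists_pos_of_pos r _ _ h' hle' (b := Q)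
      (by rwa [FibreSep.divSub_apply])
    rw [FibreSep.divSub_apply] at hPpos
    exact ⟨P, (FibreSep.mem_zeros_iff_ord_pos hx₁ hsep₁ c₁ P).mpr hPpos, hP⟩
  · intro Q hQ
    rw [FibreSep.mem_zeros_iff_ord_pos] at hQ
    have h1 := sum_pp_fibre r _ _ h' hle' Q
    rw [FibreSep.divSub_apply, max_eq_left hQ.le] at h1
    rw [← h1]
    symm
    rw [Finset.sum_filter, Finset.sum_filter]
    -- both sides are sums of `max (ord) 0` over the places in the fibre
    have hsub : ∀ P : Place K₁ F₁, (if r P = Q then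
        max (FibreSep.divSub hx₁ hsep₁ c₁ P) 0 else 0) ≠ 0 →
        P ∈ FibreSep.zeros hx₁ hsep₁ c₁ := by
      intro P hP
      rw [FibreSep.mem_zeros_iff_ord_pos]
      by_contra hcon
      rw [not_lt] at hcon
      apply hP
      split_ifs
      · rw [FibreSep.divSub_apply]; exact max_eq_right hcon
      · rfl
    rw [Finset.sum_subset (s₁ := (FibreSep.divSub hx₁ hsep₁ c₁).support)
      (s₂ := (FibreSep.divSub hx₁ hsep₁ c₁).support ∪ FibreSep.zeros hx₁ hsep₁ c₁)
      Finset.subset_union_left (fun P _ hP => by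
        rw [Finsupp.notMem_support_iff] at hP
        rw [hP]; simp)]
    rw [← Finset.sum_subset (s₁ := FibreSep.zeros hx₁ hsep₁ c₁)
      (s₂ := (FibreSep.divSub hx₁ hsep₁ c₁).support ∪ FibreSep.zeros hx₁ hsep₁ c₁)
      Finset.subset_union_right (fun P _ hP => by
        by_contra hne
        exact hP (hsub P hne))]
    refine Finset.sum_congr rfl fun P hP => ?_
    rw [FibreSep.mem_zeros_iff_ord_pos] at hP
    split_ifs
    · rw [FibreSep.divSub_apply, max_eq_left hP.le]
    · rfl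

end Abstract

section X0

local notation "Kb" => AlgebraicClosure ℚ

open ModularCurve
open Fermat.Agent.S24.DegreeAlg (jgen)

set_option synthInstance.maxHeartbeats 400000

variable {A : ValuationSubring (AlgebraicClosure ℚ)} {N : ℕ} [NeZero N]

/-- `[ℚ̄(X₀(N)) : ℚ̄(j)] = ψ(N) ≤ [k(X₀(N)) : k(j)]` (S24 + S20 + Igusa S28). -/
theorem finrank_le {ℓ : ℕ} [Fact ℓ.Prime] (hA : A.LiesOverPrime ℓ) (hℓN : ¬ ℓ ∣ N)
    [IsAlgClosed (IsLocalRing.ResidueField A)] :
    Module.finrank Kb⟮jgen N⟯ ↥(modularFunctionFieldBar N) ≤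
      Module.finrank (IsLocalRing.ResidueField A)⟮FkBasics.jk (IsLocalRing.ResidueField A) N⟯
        ↥(modularFunctionFieldFullC (IsLocalRing.ResidueField A) N) := by
  rw [Instances.finrank_jgen, Fermat.Agent.S20.CountFinal.card_Q]
  exact FkBasics.psi_le_finrank (IsLocalRing.ResidueField A) N
    (Fermat.Agent.S18.ResidueBasics.natCast_ne_zero_of_not_dvd A hA hℓN)

/-- **H-B6.** For every `c ∈ A`: the degrees of `j` on both fibres agree, and the fibre of `j̄`
over `c̄` (resp. the polar fibre) has at most as many points as the fibre of `j` over `c`. -/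
theorem compare_X0 {ℓ : ℕ} [Fact ℓ.Prime] (hA : A.LiesOverPrime ℓ) (hℓN : ¬ ℓ ∣ N)
    (h : ReductionInputsModL A N) [IsAlgClosed (IsLocalRing.ResidueField A)]
    (hsep₂ : Algebra.IsSeparable
      (IsLocalRing.ResidueField A)⟮FkBasics.jk (IsLocalRing.ResidueField A) N⟯
      ↥(modularFunctionFieldFullC (IsLocalRing.ResidueField A) N)) (c : A) :
    Module.finrank Kb⟮jgen N⟯ ↥(modularFunctionFieldBar N) =
      Module.finrank (IsLocalRing.ResidueField A)⟮FkBasics.jk (IsLocalRing.ResidueField A) N⟯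
        ↥(modularFunctionFieldFullC (IsLocalRing.ResidueField A) N) ∧
    (FibreSep.zeros (FkBasics.isFF (IsLocalRing.ResidueField A) N) hsep₂
        (IsLocalRing.residue A c)).card ≤
      (FibreSep.zeros (Instances.isFF_jgen N) (Instances.isSeparable_jgen N) (c : Kb)).card ∧
    (FibreSep.poles (FkBasics.isFF (IsLocalRing.ResidueField A) N) hsep₂).card ≤
      (FibreSep.poles (Instances.isFF_jgen N) (Instances.isSeparable_jgen N)).card := by
  refine compare (Instances.isFF_jgen N) (Instances.isSeparable_jgen N)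
    (FkBasics.isFF (IsLocalRing.ResidueField A) N) hsep₂ (placeReductionModL h) (c : Kb)
    (IsLocalRing.residue A c) (fun Q => ?_) (finrank_le hA hℓN)
  exact Fermat.Agent.S18.B.IntegralJ.reduction_div_jSub A N
    (isPlaceReductionModL_placeReductionModL h) c _ (FibreSep.divSub_apply _ _ _) Q

/-- the degrees agree -/
theorem finrank_eq {ℓ : ℕ} [Fact ℓ.Prime] (hA : A.LiesOverPrime ℓ) (hℓN : ¬ ℓ ∣ N)
    (h : ReductionInputsModL A N) [IsAlgClosed (IsLocalRing.ResidueField A)]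
    (hsep₂ : Algebra.IsSeparable
      (IsLocalRing.ResidueField A)⟮FkBasics.jk (IsLocalRing.ResidueField A) N⟯
      ↥(modularFunctionFieldFullC (IsLocalRing.ResidueField A) N)) :
    Module.finrank Kb⟮jgen N⟯ ↥(modularFunctionFieldBar N) =
      Module.finrank (IsLocalRing.ResidueField A)⟮FkBasics.jk (IsLocalRing.ResidueField A) N⟯
        ↥(modularFunctionFieldFullC (IsLocalRing.ResidueField A) N) :=
  (compare_X0 hA hℓN h hsep₂ 0).1

/-- the polar fibre does not grow -/
theorem card_poles_le {ℓ : ℕ} [Fact ℓ.Prime] (hA : A.LiesOverPrime ℓ) (hℓN : ¬ ℓ ∣ N)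
    (h : ReductionInputsModL A N) [IsAlgClosed (IsLocalRing.ResidueField A)]
    (hsep₂ : Algebra.IsSeparable
      (IsLocalRing.ResidueField A)⟮FkBasics.jk (IsLocalRing.ResidueField A) N⟯
      ↥(modularFunctionFieldFullC (IsLocalRing.ResidueField A) N)) :
    (FibreSep.poles (FkBasics.isFF (IsLocalRing.ResidueField A) N) hsep₂).card ≤
      (FibreSep.poles (Instances.isFF_jgen N) (Instances.isSeparable_jgen N)).card :=
  (compare_X0 hA hℓN h hsep₂ 0).2.2

/-- the fibre over `0` does not grow -/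
theorem card_zeros_zero_le {ℓ : ℕ} [Fact ℓ.Prime] (hA : A.LiesOverPrime ℓ) (hℓN : ¬ ℓ ∣ N)
    (h : ReductionInputsModL A N) [IsAlgClosed (IsLocalRing.ResidueField A)]
    (hsep₂ : Algebra.IsSeparable
      (IsLocalRing.ResidueField A)⟮FkBasics.jk (IsLocalRing.ResidueField A) N⟯
      ↥(modularFunctionFieldFullC (IsLocalRing.ResidueField A) N)) :
    (FibreSep.zeros (FkBasics.isFF (IsLocalRing.ResidueField A) N) hsep₂ 0).card ≤
      (FibreSep.zeros (Instances.isFF_jgen N) (Instances.isSeparable_jgen N) 0).card := by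
  have := (compare_X0 hA hℓN h hsep₂ 0).2.1
  rwa [map_zero, ZeroMemClass.coe_zero] at this

/-- the fibre over `1728` does not grow -/
theorem card_zeros_1728_le {ℓ : ℕ} [Fact ℓ.Prime] (hA : A.LiesOverPrime ℓ) (hℓN : ¬ ℓ ∣ N)
    (h : ReductionInputsModL A N) [IsAlgClosed (IsLocalRing.ResidueField A)]
    (hsep₂ : Algebra.IsSeparable
      (IsLocalRing.ResidueField A)⟮FkBasics.jk (IsLocalRing.ResidueField A) N⟯
      ↥(modularFunctionFieldFullC (IsLocalRing.ResidueField A) N)) :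
    (FibreSep.zeros (FkBasics.isFF (IsLocalRing.ResidueField A) N) hsep₂ 1728).card ≤
      (FibreSep.zeros (Instances.isFF_jgen N) (Instances.isSeparable_jgen N) 1728).card := by
  have := (compare_X0 hA hℓN h hsep₂ 1728).2.1
  have h1 : IsLocalRing.residue A (1728 : A) = (1728 : IsLocalRing.ResidueField A) :=
    map_ofNat _ _
  have h2 : (((1728 : A) : A) : Kb) = (1728 : Kb) := by norm_cast
  rwa [h1, h2] at this

end X0

end Fermat.Agent.S18.B.FibreX0
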