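import Mathlib
import Fermat.Agent.S18.A.FibreSep
import Fermat.Agent.S18.B.FibreAbstract

/-!
# PROJECT H (S18), block B, slice H-B6 (generic half): the fibre identity for two function fields

`(K₁, F₁)`, `(K₂, F₂)` function fields over algebraically closed fields with separating elements
`y₁`, `y₂` (`IsFF` + `Algebra.IsSeparable`), `r : Place K₁ F₁ → Place K₂ F₂` with
`r_* div y₁ = div y₂` (hypothesis `hmap`, in the shape delivered by `IsPlaceReductionAlong`) and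
`[F₁ : K₁(y₁)] ≤ [F₂ : K₂(y₂)]`.  Then

* `finrank_eq` : the two degrees are equal;
* `mapDomain_zeroDiv`, `mapDomain_poleDiv` : `r_*` maps zero divisor to zero divisor and pole
  divisor to pole divisor;
* `sum_ord_fibre_pos`, `sum_ord_fibre_neg` : the fibre identity `e_Q = ∑_{r P = Q} e_P`;
* `ord_pos_map`, `ord_neg_map`, `exists_ord_pos`, `exists_ord_neg` : zeros go to zeros, poles to
  poles, surjectively;
* `card_zeros_le`, `card_poles_le` : the fibres do not grow under `r`.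

The versions `…_sub` are the same statements for `y₁ = x₁ - c₁`, `y₂ = x₂ - c₂` in terms of
`FibreSep.zeros hx hsep c` and `FibreSep.poles hx hsep`.
-/

set_option autoImplicit false

namespace Fermat.Agent.S18.B.FibreGeneric

open AlgebraicCurve IntermediateField Fermat.Agent.S24.FF Fermat.Agent.S18.A.FibreSep
  Fermat.Agent.S18.B.FibreAbstract

universe u₁ w₁ u₂ w₂

variable {K₁ : Type w₁} {F₁ : Type u₁} [Field K₁] [Field F₁] [Algebra K₁ F₁] [IsAlgClosed K₁]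
variable {K₂ : Type w₂} {F₂ : Type u₂} [Field K₂] [Field F₂] [Algebra K₂ F₂] [IsAlgClosed K₂]

section One

variable {K : Type w₁} {F : Type u₁} [Field K] [Field F] [Algebra K F] [IsAlgClosed K]
variable {y : F} (hy : IsFF K y) (sy : Algebra.IsSeparable K⟮y⟯ F)

theorem pp_divOf : pp (divOf hy sy) = zeroDiv hy sy := by
  ext v
  rw [pp_apply, divOf_apply, zeroDiv_apply]

theorem np_divOf : np (divOf hy sy) = poleDiv hy sy := by
  ext v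
  rw [np_apply, divOf_apply, poleDiv_apply]

theorem tot_poleDiv : tot (poleDiv hy sy) = (Module.finrank K⟮y⟯ F : ℤ) := by
  unfold poleDiv
  rw [map_sum, ← sum_poles hy sy]
  exact Finset.sum_congr rfl fun v _ => tot_single v _

theorem tot_zeroDiv : tot (zeroDiv hy sy) = (Module.finrank K⟮y⟯ F : ℤ) := by
  unfold zeroDiv
  rw [map_sum]
  have h := sum_zeros hy sy 0
  simp only [map_zero, sub_zero] at h
  rw [← h]
  exact Finset.sum_congr rfl fun v _ => tot_single v _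

end One

section Two

variable {y₁ : F₁} {y₂ : F₂}
variable (h₁ : IsFF K₁ y₁) (s₁ : Algebra.IsSeparable K₁⟮y₁⟯ F₁)
variable (h₂ : IsFF K₂ y₂) (s₂ : Algebra.IsSeparable K₂⟮y₂⟯ F₂)
variable (r : Place K₁ F₁ → Place K₂ F₂)

/-- the hypothesis, in the shape delivered by `IsPlaceReductionAlong` -/
def MapHyp (y₁ : F₁) (y₂ : F₂) (r : Place K₁ F₁ → Place K₂ F₂) : Prop :=
  ∀ D : Divisor K₁ F₁, (∀ P, D P = P.ord y₁) → ∀ Q, Finsupp.mapDomain r D Q = Q.ord y₂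

variable {r}

include h₁ s₁ h₂ s₂ in
theorem mapDomain_divOf (hmap : MapHyp y₁ y₂ r) :
    (divOf h₁ s₁).mapDomain r = divOf h₂ s₂ := by
  ext Q
  rw [hmap (divOf h₁ s₁) (divOf_apply h₁ s₁) Q, divOf_apply]

include h₁ s₁ h₂ s₂ in
theorem tot_np_le (hle : Module.finrank K₁⟮y₁⟯ F₁ ≤ Module.finrank K₂⟮y₂⟯ F₂) :
    tot (np (divOf h₁ s₁)) ≤ tot (np (divOf h₂ s₂)) := by
  rw [np_divOf, np_divOf, tot_poleDiv, tot_poleDiv]
  exact_mod_cast hle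

include h₁ s₁ h₂ s₂ in
/-- the degrees are equal -/
theorem finrank_eq (hmap : MapHyp y₁ y₂ r)
    (hle : Module.finrank K₁⟮y₁⟯ F₁ ≤ Module.finrank K₂⟮y₂⟯ F₂) :
    Module.finrank K₁⟮y₁⟯ F₁ = Module.finrank K₂⟮y₂⟯ F₂ := by
  have h := tot_np_eq r _ _ (mapDomain_divOf h₁ s₁ h₂ s₂ hmap) (tot_np_le h₁ s₁ h₂ s₂ hle)
  rw [np_divOf, np_divOf, tot_poleDiv, tot_poleDiv] at h
  exact_mod_cast h

include h₁ s₁ h₂ s₂ in
theorem mapDomain_zeroDiv (hmap : MapHyp y₁ y₂ r)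
    (hle : Module.finrank K₁⟮y₁⟯ F₁ ≤ Module.finrank K₂⟮y₂⟯ F₂) :
    (zeroDiv h₁ s₁).mapDomain r = zeroDiv h₂ s₂ := by
  rw [← pp_divOf, ← pp_divOf]
  exact (mapDomain_pp_np r _ _ (mapDomain_divOf h₁ s₁ h₂ s₂ hmap) (tot_np_le h₁ s₁ h₂ s₂ hle)).1

include h₁ s₁ h₂ s₂ in
theorem mapDomain_poleDiv (hmap : MapHyp y₁ y₂ r)
    (hle : Module.finrank K₁⟮y₁⟯ F₁ ≤ Module.finrank K₂⟮y₂⟯ F₂) :
    (poleDiv h₁ s₁).mapDomain r = poleDiv h₂ s₂ := by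
  rw [← np_divOf, ← np_divOf]
  exact (mapDomain_pp_np r _ _ (mapDomain_divOf h₁ s₁ h₂ s₂ hmap) (tot_np_le h₁ s₁ h₂ s₂ hle)).2

include h₁ s₁ h₂ s₂ in
/-- zeros go to zeros -/
theorem ord_pos_map (hmap : MapHyp y₁ y₂ r)
    (hle : Module.finrank K₁⟮y₁⟯ F₁ ≤ Module.finrank K₂⟮y₂⟯ F₂) {P : Place K₁ F₁}
    (hP : 0 < P.ord y₁) : 0 < (r P).ord y₂ := by
  have := pos_map_of_pos r _ _ (mapDomain_divOf h₁ s₁ h₂ s₂ hmap) (tot_np_le h₁ s₁ h₂ s₂ hle)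
    (a := P) (by rwa [divOf_apply])
  rwa [divOf_apply] at this

include h₁ s₁ h₂ s₂ in
/-- poles go to poles -/
theorem ord_neg_map (hmap : MapHyp y₁ y₂ r)
    (hle : Module.finrank K₁⟮y₁⟯ F₁ ≤ Module.finrank K₂⟮y₂⟯ F₂) {P : Place K₁ F₁}
    (hP : P.ord y₁ < 0) : (r P).ord y₂ < 0 := by
  have := neg_map_of_neg r _ _ (mapDomain_divOf h₁ s₁ h₂ s₂ hmap) (tot_np_le h₁ s₁ h₂ s₂ hle)
    (a := P) (by rwa [divOf_apply])
  rwa [divOf_apply] at this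

include h₁ s₁ h₂ s₂ in
/-- every zero downstairs is the image of a zero upstairs -/
theorem exists_ord_pos (hmap : MapHyp y₁ y₂ r)
    (hle : Module.finrank K₁⟮y₁⟯ F₁ ≤ Module.finrank K₂⟮y₂⟯ F₂) {Q : Place K₂ F₂}
    (hQ : 0 < Q.ord y₂) : ∃ P : Place K₁ F₁, r P = Q ∧ 0 < P.ord y₁ := by
  obtain ⟨P, hPQ, hP⟩ := exists_pos_of_pos r _ _ (mapDomain_divOf h₁ s₁ h₂ s₂ hmap)
    (tot_np_le h₁ s₁ h₂ s₂ hle) (b := Q) (by rwa [divOf_apply])
  exact ⟨P, hPQ, by rwa [divOf_apply] at hP⟩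

include h₁ s₁ h₂ s₂ in
/-- every pole downstairs is the image of a pole upstairs -/
theorem exists_ord_neg (hmap : MapHyp y₁ y₂ r)
    (hle : Module.finrank K₁⟮y₁⟯ F₁ ≤ Module.finrank K₂⟮y₂⟯ F₂) {Q : Place K₂ F₂}
    (hQ : Q.ord y₂ < 0) : ∃ P : Place K₁ F₁, r P = Q ∧ P.ord y₁ < 0 := by
  obtain ⟨P, hPQ, hP⟩ := exists_neg_of_neg r _ _ (mapDomain_divOf h₁ s₁ h₂ s₂ hmap)
    (tot_np_le h₁ s₁ h₂ s₂ hle) (b := Q) (by rwa [divOf_apply])
  exact ⟨P, hPQ, by rwa [divOf_apply] at hP⟩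

include h₁ s₁ h₂ s₂ in
/-- **fibre identity** at the zeros: `∑_{r P = Q, P zero of y₁} ord_P y₁ = max (ord_Q y₂) 0` -/
theorem sum_ord_fibre_pos [DecidableEq (Place K₂ F₂)] (hmap : MapHyp y₁ y₂ r)
    (hle : Module.finrank K₁⟮y₁⟯ F₁ ≤ Module.finrank K₂⟮y₂⟯ F₂) (Q : Place K₂ F₂) :
    ∑ P ∈ (zeros h₁ s₁ 0).filter (fun P => r P = Q), P.ord y₁ = max (Q.ord y₂) 0 := by
  have key := congrArg (fun E => E Q) (mapDomain_zeroDiv h₁ s₁ h₂ s₂ hmap hle)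
  simp only [zeroDiv_apply] at key
  rw [← key, mapDomain_apply_eq_sum]
  have hsub : (zeroDiv h₁ s₁).support.filter (fun P => r P = Q)
      ⊆ (zeros h₁ s₁ 0).filter (fun P => r P = Q) := by
    intro P hP
    rw [Finset.mem_filter, Finsupp.mem_support_iff, zeroDiv_apply] at hP
    rw [Finset.mem_filter, mem_zeros_iff_ord_pos, map_zero, sub_zero]
    refine ⟨?_, hP.2⟩
    by_contra hc
    exact hP.1 (max_eq_right (not_lt.mp hc))
  rw [Finset.sum_subset hsub (fun P _ hP => by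
    rw [Finset.mem_filter, Finsupp.mem_support_iff, not_and_or, not_not] at hP
    rcases hP with hP | hP
    · exact hP
    · rename_i hmem
      rw [Finset.mem_filter] at hmem
      exact absurd hmem.2 hP)]
  refine Finset.sum_congr rfl fun P hP => ?_
  rw [Finset.mem_filter, mem_zeros_iff_ord_pos, map_zero, sub_zero] at hP
  rw [zeroDiv_apply, max_eq_left hP.1.le]

include h₁ s₁ h₂ s₂ in
/-- **fibre identity** at the poles: `∑_{r P = Q, P pole of y₁} (-ord_P y₁) = max (-ord_Q y₂) 0` -/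
theorem sum_ord_fibre_neg [DecidableEq (Place K₂ F₂)] (hmap : MapHyp y₁ y₂ r)
    (hle : Module.finrank K₁⟮y₁⟯ F₁ ≤ Module.finrank K₂⟮y₂⟯ F₂) (Q : Place K₂ F₂) :
    ∑ P ∈ (poles h₁ s₁).filter (fun P => r P = Q), -P.ord y₁ = max (-Q.ord y₂) 0 := by
  have key := congrArg (fun E => E Q) (mapDomain_poleDiv h₁ s₁ h₂ s₂ hmap hle)
  simp only [poleDiv_apply] at key
  rw [← key, mapDomain_apply_eq_sum]
  have hsub : (poleDiv h₁ s₁).support.filter (fun P => r P = Q)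
      ⊆ (poles h₁ s₁).filter (fun P => r P = Q) := by
    intro P hP
    rw [Finset.mem_filter, Finsupp.mem_support_iff, poleDiv_apply] at hP
    rw [Finset.mem_filter, mem_poles_iff_ord_neg]
    refine ⟨?_, hP.2⟩
    by_contra hc
    exact hP.1 (max_eq_right (by omega))
  rw [Finset.sum_subset hsub (fun P _ hP => by
    rw [Finset.mem_filter, Finsupp.mem_support_iff, not_and_or, not_not] at hP
    rcases hP with hP | hP
    · exact hP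
    · rename_i hmem
      rw [Finset.mem_filter] at hmem
      exact absurd hmem.2 hP)]
  refine Finset.sum_congr rfl fun P hP => ?_
  rw [Finset.mem_filter, mem_poles_iff_ord_neg] at hP
  rw [poleDiv_apply, max_eq_left (by omega)]

include h₁ s₁ h₂ s₂ in
/-- the fibre of zeros does not grow -/
theorem card_zeros_le (hmap : MapHyp y₁ y₂ r)
    (hle : Module.finrank K₁⟮y₁⟯ F₁ ≤ Module.finrank K₂⟮y₂⟯ F₂) :
    (zeros h₂ s₂ 0).card ≤ (zeros h₁ s₁ 0).card := by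
  classical
  refine Finset.card_le_card_of_surjOn r ?_
  intro Q hQ
  rw [Finset.mem_coe, mem_zeros_iff_ord_pos, map_zero, sub_zero] at hQ
  obtain ⟨P, rfl, hP⟩ := exists_ord_pos h₁ s₁ h₂ s₂ hmap hle hQ
  refine ⟨P, ?_, rfl⟩
  rw [Finset.mem_coe, mem_zeros_iff_ord_pos, map_zero, sub_zero]
  exact hP

include h₁ s₁ h₂ s₂ in
/-- the fibre of poles does not grow -/
theorem card_poles_le (hmap : MapHyp y₁ y₂ r)
    (hle : Module.finrank K₁⟮y₁⟯ F₁ ≤ Module.finrank K₂⟮y₂⟯ F₂) :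
    (poles h₂ s₂).card ≤ (poles h₁ s₁).card := by
  classical
  refine Finset.card_le_card_of_surjOn r ?_
  intro Q hQ
  rw [Finset.mem_coe, mem_poles_iff_ord_neg] at hQ
  obtain ⟨P, rfl, hP⟩ := exists_ord_neg h₁ s₁ h₂ s₂ hmap hle hQ
  refine ⟨P, ?_, rfl⟩
  rw [Finset.mem_coe, mem_poles_iff_ord_neg]
  exact hP

end Two

/-! ### the same statements for `x - c` -/

section SubOne

variable {K : Type w₁} {F : Type u₁} [Field K] [Field F] [Algebra K F] [IsAlgClosed K]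
variable {x : F} (hx : IsFF K x) (sx : Algebra.IsSeparable K⟮x⟯ F) (a : K)

theorem zeros_sub_eq :
    zeros (hx.sub_algebraMap a) (isSeparable_sub sx a) 0 = zeros hx sx a := by
  ext v
  rw [mem_zeros_iff_ord_pos, mem_zeros_iff_ord_pos, map_zero, sub_zero]

theorem ord_neg_sub_iff (v : Place K F) :
    v.ord (x - algebraMap K F a) < 0 ↔ v.ord x < 0 := by
  constructor
  · intro h
    have h1 := ord_sub_of_ord_neg (x := x - algebraMap K F a) v (-a) h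
    rw [map_neg, sub_neg_eq_add, sub_add_cancel] at h1
    rw [h1]
    exact h
  · intro h
    rw [ord_sub_of_ord_neg v a h]
    exact h

theorem poles_sub_eq :
    poles (hx.sub_algebraMap a) (isSeparable_sub sx a) = poles hx sx := by
  ext v
  rw [mem_poles_iff_ord_neg, mem_poles_iff_ord_neg, ord_neg_sub_iff]

theorem finrank_sub_eq :
    Module.finrank K⟮x - algebraMap K F a⟯ F = Module.finrank K⟮x⟯ F := by
  rw [adjoin_sub]

end SubOne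

section SubTwo

variable {x₁ : F₁} {x₂ : F₂}
variable (h₁ : IsFF K₁ x₁) (s₁ : Algebra.IsSeparable K₁⟮x₁⟯ F₁)
variable (h₂ : IsFF K₂ x₂) (s₂ : Algebra.IsSeparable K₂⟮x₂⟯ F₂)
variable {r : Place K₁ F₁ → Place K₂ F₂} (c₁ : K₁) (c₂ : K₂)

include h₁ s₁ h₂ s₂ in
theorem finrank_eq_sub
    (hmap : MapHyp (x₁ - algebraMap K₁ F₁ c₁) (x₂ - algebraMap K₂ F₂ c₂) r)
    (hle : Module.finrank K₁⟮x₁⟯ F₁ ≤ Module.finrank K₂⟮x₂⟯ F₂) :
    Module.finrank K₁⟮x₁⟯ F₁ = Module.finrank K₂⟮x₂⟯ F₂ := by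
  have := finrank_eq (h₁.sub_algebraMap c₁) (isSeparable_sub s₁ c₁) (h₂.sub_algebraMap c₂)
    (isSeparable_sub s₂ c₂) hmap (by rwa [finrank_sub_eq, finrank_sub_eq])
  rwa [finrank_sub_eq, finrank_sub_eq] at this

include h₁ s₁ h₂ s₂ in
/-- **fibre identity over `c`**: `∑_{P | c₁, r P = Q} ord_P (x₁ - c₁) = max (ord_Q (x₂ - c₂)) 0` -/
theorem sum_ord_fibre_zeros_sub [DecidableEq (Place K₂ F₂)]
    (hmap : MapHyp (x₁ - algebraMap K₁ F₁ c₁) (x₂ - algebraMap K₂ F₂ c₂) r)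
    (hle : Module.finrank K₁⟮x₁⟯ F₁ ≤ Module.finrank K₂⟮x₂⟯ F₂) (Q : Place K₂ F₂) :
    ∑ P ∈ (zeros h₁ s₁ c₁).filter (fun P => r P = Q), P.ord (x₁ - algebraMap K₁ F₁ c₁)
      = max (Q.ord (x₂ - algebraMap K₂ F₂ c₂)) 0 := by
  rw [← zeros_sub_eq h₁ s₁ c₁]
  exact sum_ord_fibre_pos (h₁.sub_algebraMap c₁) (isSeparable_sub s₁ c₁) (h₂.sub_algebraMap c₂)
    (isSeparable_sub s₂ c₂) hmap (by rwa [finrank_sub_eq, finrank_sub_eq]) Q

include h₁ s₁ h₂ s₂ in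
/-- **fibre identity at the poles**: `∑_{P pole, r P = Q} (-ord_P x₁) = max (-ord_Q x₂) 0` -/
theorem sum_ord_fibre_poles_sub [DecidableEq (Place K₂ F₂)]
    (hmap : MapHyp (x₁ - algebraMap K₁ F₁ c₁) (x₂ - algebraMap K₂ F₂ c₂) r)
    (hle : Module.finrank K₁⟮x₁⟯ F₁ ≤ Module.finrank K₂⟮x₂⟯ F₂) (Q : Place K₂ F₂) :
    ∑ P ∈ (poles h₁ s₁).filter (fun P => r P = Q), -P.ord x₁ = max (-Q.ord x₂) 0 := by
  have key := sum_ord_fibre_neg (h₁.sub_algebraMap c₁) (isSeparable_sub s₁ c₁)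
    (h₂.sub_algebraMap c₂) (isSeparable_sub s₂ c₂) hmap (by rwa [finrank_sub_eq, finrank_sub_eq]) Q
  rw [poles_sub_eq h₁ s₁ c₁] at key
  have hQ : max (-Q.ord (x₂ - algebraMap K₂ F₂ c₂)) 0 = max (-Q.ord x₂) 0 := by
    by_cases hneg : Q.ord x₂ < 0
    · rw [ord_sub_of_ord_neg Q c₂ hneg]
    · have h' : ¬ Q.ord (x₂ - algebraMap K₂ F₂ c₂) < 0 := fun h => hneg ((ord_neg_sub_iff c₂ Q).mp h)
      rw [max_eq_right (by omega), max_eq_right (by omega)]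
  rw [← hQ, ← key]
  refine Finset.sum_congr rfl fun P hP => ?_
  rw [Finset.mem_filter, mem_poles_iff_ord_neg] at hP
  rw [ord_sub_of_ord_neg P c₁ hP.1]

include h₁ s₁ h₂ s₂ in
theorem mem_zeros_map
    (hmap : MapHyp (x₁ - algebraMap K₁ F₁ c₁) (x₂ - algebraMap K₂ F₂ c₂) r)
    (hle : Module.finrank K₁⟮x₁⟯ F₁ ≤ Module.finrank K₂⟮x₂⟯ F₂) {P : Place K₁ F₁}
    (hP : P ∈ zeros h₁ s₁ c₁) : r P ∈ zeros h₂ s₂ c₂ := by
  rw [mem_zeros_iff_ord_pos] at hP ⊢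
  exact ord_pos_map (h₁.sub_algebraMap c₁) (isSeparable_sub s₁ c₁) (h₂.sub_algebraMap c₂)
    (isSeparable_sub s₂ c₂) hmap (by rwa [finrank_sub_eq, finrank_sub_eq]) hP

include h₁ s₁ h₂ s₂ in
theorem exists_mem_zeros
    (hmap : MapHyp (x₁ - algebraMap K₁ F₁ c₁) (x₂ - algebraMap K₂ F₂ c₂) r)
    (hle : Module.finrank K₁⟮x₁⟯ F₁ ≤ Module.finrank K₂⟮x₂⟯ F₂) {Q : Place K₂ F₂}
    (hQ : Q ∈ zeros h₂ s₂ c₂) : ∃ P ∈ zeros h₁ s₁ c₁, r P = Q := by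
  rw [mem_zeros_iff_ord_pos] at hQ
  obtain ⟨P, hPQ, hP⟩ := exists_ord_pos (h₁.sub_algebraMap c₁) (isSeparable_sub s₁ c₁)
    (h₂.sub_algebraMap c₂) (isSeparable_sub s₂ c₂) hmap (by rwa [finrank_sub_eq, finrank_sub_eq]) hQ
  exact ⟨P, (mem_zeros_iff_ord_pos h₁ s₁ c₁ P).mpr hP, hPQ⟩

include h₁ s₁ h₂ s₂ in
theorem mem_poles_map
    (hmap : MapHyp (x₁ - algebraMap K₁ F₁ c₁) (x₂ - algebraMap K₂ F₂ c₂) r)
    (hle : Module.finrank K₁⟮x₁⟯ F₁ ≤ Module.finrank K₂⟮x₂⟯ F₂) {P : Place K₁ F₁}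
    (hP : P ∈ poles h₁ s₁) : r P ∈ poles h₂ s₂ := by
  rw [mem_poles_iff_ord_neg] at hP ⊢
  rw [← ord_neg_sub_iff c₂]
  exact ord_neg_map (h₁.sub_algebraMap c₁) (isSeparable_sub s₁ c₁) (h₂.sub_algebraMap c₂)
    (isSeparable_sub s₂ c₂) hmap (by rwa [finrank_sub_eq, finrank_sub_eq])
    ((ord_neg_sub_iff c₁ P).mpr hP)

include h₁ s₁ h₂ s₂ in
theorem exists_mem_poles
    (hmap : MapHyp (x₁ - algebraMap K₁ F₁ c₁) (x₂ - algebraMap K₂ F₂ c₂) r)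
    (hle : Module.finrank K₁⟮x₁⟯ F₁ ≤ Module.finrank K₂⟮x₂⟯ F₂) {Q : Place K₂ F₂}
    (hQ : Q ∈ poles h₂ s₂) : ∃ P ∈ poles h₁ s₁, r P = Q := by
  rw [mem_poles_iff_ord_neg, ← ord_neg_sub_iff c₂] at hQ
  obtain ⟨P, hPQ, hP⟩ := exists_ord_neg (h₁.sub_algebraMap c₁) (isSeparable_sub s₁ c₁)
    (h₂.sub_algebraMap c₂) (isSeparable_sub s₂ c₂) hmap (by rwa [finrank_sub_eq, finrank_sub_eq]) hQ
  exact ⟨P, (mem_poles_iff_ord_neg h₁ s₁ P).mpr ((ord_neg_sub_iff c₁ P).mp hP), hPQ⟩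

include h₁ s₁ h₂ s₂ in
/-- the fibre over `c₂` has at most as many places as the fibre over `c₁` -/
theorem card_zeros_le_sub
    (hmap : MapHyp (x₁ - algebraMap K₁ F₁ c₁) (x₂ - algebraMap K₂ F₂ c₂) r)
    (hle : Module.finrank K₁⟮x₁⟯ F₁ ≤ Module.finrank K₂⟮x₂⟯ F₂) :
    (zeros h₂ s₂ c₂).card ≤ (zeros h₁ s₁ c₁).card := by
  classical
  refine Finset.card_le_card_of_surjOn r ?_
  intro Q hQ
  obtain ⟨P, hP, hPQ⟩ := exists_mem_zeros h₁ s₁ h₂ s₂ c₁ c₂ hmap hle (Finset.mem_coe.mp hQ)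
  exact ⟨P, Finset.mem_coe.mpr hP, hPQ⟩

include h₁ s₁ h₂ s₂ in
/-- there are at most as many poles downstairs as upstairs -/
theorem card_poles_le_sub
    (hmap : MapHyp (x₁ - algebraMap K₁ F₁ c₁) (x₂ - algebraMap K₂ F₂ c₂) r)
    (hle : Module.finrank K₁⟮x₁⟯ F₁ ≤ Module.finrank K₂⟮x₂⟯ F₂) :
    (poles h₂ s₂).card ≤ (poles h₁ s₁).card := by
  classical
  refine Finset.card_le_card_of_surjOn r ?_
  intro Q hQ
  obtain ⟨P, hP, hPQ⟩ := exists_mem_poles h₁ s₁ h₂ s₂ c₁ c₂ hmap hle (Finset.mem_coe.mp hQ)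
  exact ⟨P, Finset.mem_coe.mpr hP, hPQ⟩

end SubTwo

end Fermat.Agent.S18.B.FibreGeneric
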