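import Mathlib
import Fermat.Agent.S18.A.Instances
import Fermat.Agent.S18.ResidueBasics
import Fermat.Agent.S18.B.FibreGeneric
import Fermat.Agent.S18.B.IntegralJ
import Fermat.Agent.S18.B.FkBasics
import Fermat.Agent.S28.DegreeQ

/-!
# PROJECT H (S18), block B, slice H-B6: the fibre identity for `X₀(N)`

Setting: `Kb = ℚ̄`, `A` a valuation subring of `Kb` lying over a prime `ℓ ∤ N`, `k` its residue
field, `FL = modularFunctionFieldBar N` with `x₁ = jgen N`, `Fk = modularFunctionFieldFullC k N`
with `x₂ = jk k N`, and `r : Place Kb FL → Place k Fk` with `IsPlaceReductionAlong A (residue A) N r`.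
Separability of `Fk / k(jk)` is an explicit hypothesis `sk` (slice H-B3).

* `mapHyp` : `r_* div (j - c) = div (j̄ - c̄)` for `c ∈ A`, in the shape of `FibreGeneric.MapHyp`;
* `finrank_le`, `finrank_eq`, `finrank_bar_eq_psi`, `finrank_k_eq_psi` :
  `[FL : ℚ̄(j)] = [Fk : k(j̄)] = ψ(N)`;
* `sum_ord_fibre_zeros`, `sum_ord_fibre_poles` : the fibre identity `e_Q = ∑_{r P = Q} e_P` over
  every `c ∈ A` and at the poles;
* `mem_zeros_map`, `exists_mem_zeros`, `mem_poles_map`, `exists_mem_poles` : `r` maps the fibre of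
  `j` over `c` ONTO the fibre of `j̄` over `c̄`, and poles onto poles;
* `card_zeros_le`, `card_poles_le` : `#fib_k(c̄) ≤ #fib(c)`, `#poles_k ≤ #poles`.
-/

set_option autoImplicit false
set_option synthInstance.maxHeartbeats 400000

namespace Fermat.Agent.S18.B.FibreX0Id

open ModularCurve AlgebraicCurve IntermediateField IsLocalRing
open Fermat.Agent.S24.FF Fermat.Agent.S18.A.FibreSep Fermat.Agent.S18.B.FibreGeneric
open Fermat.Agent.S24.DegreeAlg (jgen)
open Fermat.Agent.S18.B.FkBasics (jk)

local notation "Kb" => AlgebraicClosure ℚ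

variable (A : ValuationSubring Kb) (N : ℕ) [NeZero N]

/-- instance shortcut: the search for this instance is slow over the residue field; the value is
exactly the instance found by the search (`SubalgebraClass.toAlgebra`). -/
noncomputable local instance algShortcut :
    Algebra (ResidueField A) ↥(modularFunctionFieldFullC (ResidueField A) N) :=
  SubalgebraClass.toAlgebra (modularFunctionFieldFullC (ResidueField A) N)

/-! ### the two function fields -/

/-- `j` is a function-field generator of `ℚ̄(X₀(N))` -/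
theorem hL : IsFF Kb (jgen N) := Fermat.Agent.S18.A.Instances.isFF_jgen N

/-- `ℚ̄(X₀(N)) / ℚ̄(j)` is separable -/
theorem sL : Algebra.IsSeparable Kb⟮jgen N⟯ ↥(modularFunctionFieldBar N) :=
  Fermat.Agent.S18.A.Instances.isSeparable_jgen N

/-- `j̄` is a function-field generator of `Fk` -/
theorem hk : IsFF (ResidueField A) (jk (ResidueField A) N) :=
  Fermat.Agent.S18.B.FkBasics.isFF (ResidueField A) N

/-- `[FL : ℚ̄(j)] = ψ(N)` -/
theorem finrank_bar_eq_psi :
    Module.finrank Kb⟮jgen N⟯ ↥(modularFunctionFieldBar N) = dedekindPsi N := by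
  rw [Fermat.Agent.S18.A.Instances.finrank_jgen N]
  exact Fermat.Agent.S28.DegreeQ.psi_eq N

/-- `[FL : ℚ̄(j)] ≤ [Fk : k(j̄)]` (Igusa, S28) -/
theorem finrank_le {ℓ : ℕ} [Fact ℓ.Prime] (hA : A.LiesOverPrime ℓ) (hℓN : ¬ ℓ ∣ N) :
    Module.finrank Kb⟮jgen N⟯ ↥(modularFunctionFieldBar N)
      ≤ Module.finrank (ResidueField A)⟮jk (ResidueField A) N⟯
          ↥(modularFunctionFieldFullC (ResidueField A) N) := by
  have := Fermat.Agent.S18.ResidueBasics.isAlgClosed_residueField A
  rw [finrank_bar_eq_psi]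
  exact Fermat.Agent.S18.B.FkBasics.psi_le_finrank (ResidueField A) N
    (Fermat.Agent.S18.ResidueBasics.natCast_ne_zero_of_not_dvd A hA hℓN)

/-! ### consequences of the place reduction -/

section Red

variable {A N}
variable {r : Place Kb ↥(modularFunctionFieldBar N) →
  Place (ResidueField A) ↥(modularFunctionFieldFullC (ResidueField A) N)}

/-- `r_* div (j - c) = div (j̄ - c̄)` for every `c ∈ A` -/
theorem mapHyp (hr : IsPlaceReductionAlong A (residue A) N r) (c : A) :
    MapHyp (jgen N - algebraMap Kb ↥(modularFunctionFieldBar N) (c : Kb))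
      (jk (ResidueField A) N - algebraMap (ResidueField A)
        ↥(modularFunctionFieldFullC (ResidueField A) N) (residue A c)) r :=
  fun D hD Q => Fermat.Agent.S18.B.IntegralJ.reduction_div_jSub A N hr c D hD Q

variable [IsAlgClosed (ResidueField A)]
variable (hr : IsPlaceReductionAlong A (residue A) N r)
variable (sk : Algebra.IsSeparable (ResidueField A)⟮jk (ResidueField A) N⟯
  ↥(modularFunctionFieldFullC (ResidueField A) N))
variable {ℓ : ℕ} [Fact ℓ.Prime] (hA : A.LiesOverPrime ℓ) (hℓN : ¬ ℓ ∣ N)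

include hr sk hA hℓN in
/-- **`[FL : ℚ̄(j)] = [Fk : k(j̄)]`** -/
theorem finrank_eq :
    Module.finrank Kb⟮jgen N⟯ ↥(modularFunctionFieldBar N)
      = Module.finrank (ResidueField A)⟮jk (ResidueField A) N⟯
          ↥(modularFunctionFieldFullC (ResidueField A) N) :=
  finrank_eq_sub (hL N) (sL N) (hk A N) sk ((0 : A) : Kb) (residue A 0) (mapHyp hr 0)
    (finrank_le A N hA hℓN)

include hr sk hA hℓN in
/-- **`[Fk : k(j̄)] = ψ(N)`** -/
theorem finrank_k_eq_psi :
    Module.finrank (ResidueField A)⟮jk (ResidueField A) N⟯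
      ↥(modularFunctionFieldFullC (ResidueField A) N) = dedekindPsi N := by
  rw [← finrank_eq hr sk hA hℓN, finrank_bar_eq_psi]

include hr sk hA hℓN in
/-- **fibre identity over `c ∈ A`**:
`∑_{P | c, r P = Q} ord_P (j - c) = max (ord_Q (j̄ - c̄)) 0` -/
theorem sum_ord_fibre_zeros
    [DecidableEq (Place (ResidueField A) ↥(modularFunctionFieldFullC (ResidueField A) N))]
    (c : A) (Q : Place (ResidueField A) ↥(modularFunctionFieldFullC (ResidueField A) N)) :
    ∑ P ∈ (zeros (hL N) (sL N) (c : Kb)).filter (fun P => r P = Q),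
        P.ord (jgen N - algebraMap Kb ↥(modularFunctionFieldBar N) (c : Kb))
      = max (Q.ord (jk (ResidueField A) N - algebraMap (ResidueField A)
          ↥(modularFunctionFieldFullC (ResidueField A) N) (residue A c))) 0 := by
  have h1 := mapHyp hr c
  have h2 := finrank_le A N hA hℓN
  exact sum_ord_fibre_zeros_sub (hL N) (sL N) (hk A N) sk (c : Kb) (residue A c) h1 h2 Q

include hr sk hA hℓN in
/-- **fibre identity at the poles**: `∑_{P pole, r P = Q} (-ord_P j) = max (-ord_Q j̄) 0` -/
theorem sum_ord_fibre_poles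
    [DecidableEq (Place (ResidueField A) ↥(modularFunctionFieldFullC (ResidueField A) N))]
    (Q : Place (ResidueField A) ↥(modularFunctionFieldFullC (ResidueField A) N)) :
    ∑ P ∈ (poles (hL N) (sL N)).filter (fun P => r P = Q), -P.ord (jgen N)
      = max (-Q.ord (jk (ResidueField A) N)) 0 :=
  sum_ord_fibre_poles_sub (hL N) (sL N) (hk A N) sk ((0 : A) : Kb) (residue A 0) (mapHyp hr 0)
    (finrank_le A N hA hℓN) Q

include hr sk hA hℓN in
/-- `r` maps the fibre of `j` over `c` into the fibre of `j̄` over `c̄` -/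
theorem mem_zeros_map (c : A) {P : Place Kb ↥(modularFunctionFieldBar N)}
    (hP : P ∈ zeros (hL N) (sL N) (c : Kb)) : r P ∈ zeros (hk A N) sk (residue A c) :=
  FibreGeneric.mem_zeros_map (hL N) (sL N) (hk A N) sk (c : Kb) (residue A c) (mapHyp hr c)
    (finrank_le A N hA hℓN) hP

include hr sk hA hℓN in
/-- `r` maps the fibre of `j` over `c` ONTO the fibre of `j̄` over `c̄` -/
theorem exists_mem_zeros (c : A)
    {Q : Place (ResidueField A) ↥(modularFunctionFieldFullC (ResidueField A) N)}
    (hQ : Q ∈ zeros (hk A N) sk (residue A c)) : ∃ P ∈ zeros (hL N) (sL N) (c : Kb), r P = Q :=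
  FibreGeneric.exists_mem_zeros (hL N) (sL N) (hk A N) sk (c : Kb) (residue A c) (mapHyp hr c)
    (finrank_le A N hA hℓN) hQ

include hr sk hA hℓN in
/-- `r` maps poles of `j` to poles of `j̄` -/
theorem mem_poles_map {P : Place Kb ↥(modularFunctionFieldBar N)}
    (hP : P ∈ poles (hL N) (sL N)) : r P ∈ poles (hk A N) sk :=
  FibreGeneric.mem_poles_map (hL N) (sL N) (hk A N) sk ((0 : A) : Kb) (residue A 0) (mapHyp hr 0)
    (finrank_le A N hA hℓN) hP

include hr sk hA hℓN in
/-- every pole of `j̄` is the image of a pole of `j` -/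
theorem exists_mem_poles
    {Q : Place (ResidueField A) ↥(modularFunctionFieldFullC (ResidueField A) N)}
    (hQ : Q ∈ poles (hk A N) sk) : ∃ P ∈ poles (hL N) (sL N), r P = Q :=
  FibreGeneric.exists_mem_poles (hL N) (sL N) (hk A N) sk ((0 : A) : Kb) (residue A 0)
    (mapHyp hr 0) (finrank_le A N hA hℓN) hQ

include hr sk hA hℓN in
/-- **`#fib_k(c̄) ≤ #fib(c)`** for every `c ∈ A` -/
theorem card_zeros_le (c : A) :
    (zeros (hk A N) sk (residue A c)).card ≤ (zeros (hL N) (sL N) (c : Kb)).card :=
  card_zeros_le_sub (hL N) (sL N) (hk A N) sk (c : Kb) (residue A c) (mapHyp hr c)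
    (finrank_le A N hA hℓN)

include hr sk hA hℓN in
/-- **`#poles_k ≤ #poles`** -/
theorem card_poles_le : (poles (hk A N) sk).card ≤ (poles (hL N) (sL N)).card :=
  card_poles_le_sub (hL N) (sL N) (hk A N) sk ((0 : A) : Kb) (residue A 0) (mapHyp hr 0)
    (finrank_le A N hA hℓN)

end Red

end Fermat.Agent.S18.B.FibreX0Id
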