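/-
PROJECT H (S18), block B, slice H-B3 (helper23): SEPARABILITY OVER `k(J)` INSIDE `k((q))`.

`θ = q d/dq` (the derivation `thetaL` of `S28/ThetaL`) satisfies `θ J ≠ 0` for `J = jqModC k`, and it
maps `k(J)` into `k(J) · θ J`.  Hence, for a perfect field `k`:

* `exists_pow_eq_of_thetaL_eq_zero` : an element of `k(J)` killed by `θ` is a `p`-th power in `k(J)`
  (`p` the characteristic);
* `isSeparable_of_isAlgebraic` : every `y ∈ k((q))` which is algebraic over `k(J)` is separable
  over `k(J)`;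
* `isSeparable_full` : the end shape for block B: `F_k = k(J(q^d) : d ∣ N)` is separable over
  `k(J)` as soon as it is algebraic over it.
-/
import Mathlib
import Fermat.Prelude.Def_ModularCurve_X0ModL
import Fermat.Agent.S28.ThetaL
import Fermat.Agent.S28.ThetaAdjoin

set_option autoImplicit false

noncomputable section

namespace Fermat.Agent.S18.B.Separable

open HahnSeries IntermediateField ModularCurve Polynomial
open Fermat.Agent.S28.ThetaL Fermat.Agent.S28.ThetaAdjoin

variable (k : Type*) [Field k]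

/-! ## The derivation `θ` : additional calculus -/

/-- `θ (x ^ n) = n x ^ (n - 1) θ x`, for all `n`. -/
theorem thetaL_pow' (x : LaurentSeries k) (n : ℕ) :
    thetaL (x ^ n) = (n : LaurentSeries k) * x ^ (n - 1) * thetaL x := by
  rcases n with _ | n
  · simp [thetaL_one]
  · rw [thetaL_pow, Nat.add_sub_cancel]

/-- `θ` of a finite sum. -/
theorem thetaL_sum {ι : Type*} (s : Finset ι) (f : ι → LaurentSeries k) :
    thetaL (∑ i ∈ s, f i) = ∑ i ∈ s, thetaL (f i) := by
  classical
  induction s using Finset.induction_on with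
  | empty => simp [thetaL_zero]
  | insert a s ha ih => rw [Finset.sum_insert ha, Finset.sum_insert ha, thetaL_add, ih]

/-- Chain rule for polynomials with constant coefficients. -/
theorem thetaL_aeval (x : LaurentSeries k) (f : k[X]) :
    thetaL (aeval x f) = aeval x (derivative f) * thetaL x := by
  induction f using Polynomial.induction_on' with
  | add f g hf hg => rw [map_add, thetaL_add, hf, hg, derivative_add, map_add, add_mul]
  | monomial n a =>
    rw [aeval_monomial, thetaL_mul, thetaL_algebraMap, zero_mul, zero_add, thetaL_pow',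
      derivative_monomial, aeval_monomial, map_mul, map_natCast]
    ring

/-- In characteristic `p`, `θ` kills `p`-th powers. -/
theorem thetaL_pow_char (p : ℕ) [CharP k p] (x : LaurentSeries k) : thetaL (x ^ p) = 0 := by
  have hp : ((p : ℕ) : LaurentSeries k) = 0 := by
    have : ((p : ℕ) : LaurentSeries k) = HahnSeries.C ((p : ℕ) : k) :=
      (map_natCast (HahnSeries.C : k →+* LaurentSeries k) p).symm
    rw [this, CharP.cast_eq_zero, map_zero]
  rw [thetaL_pow', hp, zero_mul, zero_mul]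

theorem aeval_mem_adjoin (f : k[X]) : aeval (jqModC k) f ∈ k⟮jqModC k⟯ :=
  (mem_adjoin_simple_iff k _).mpr ⟨f, 1, by simp⟩

/-! ## Constants of `θ` in `k(J)` -/

/-- **Constants of `θ` in `k(J)`** (characteristic `p`, `k` perfect): an element of `k(J)` killed by
`θ` is a `p`-th power of an element of `k(J)`. -/
theorem exists_pow_eq_of_thetaL_eq_zero (p : ℕ) [Fact p.Prime] [CharP k p] [PerfectRing k p]
    {a : LaurentSeries k} (ha : a ∈ k⟮jqModC k⟯) (hθ : thetaL a = 0) :
    ∃ c ∈ k⟮jqModC k⟯, c ^ p = a := by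
  have hp0 : p ≠ 0 := (Fact.out : p.Prime).ne_zero
  obtain ⟨f, g, rfl⟩ := (mem_adjoin_simple_iff k a).mp ha
  set J := jqModC k with hJ
  by_cases hg : aeval J g = 0
  · exact ⟨0, zero_mem _, by rw [hg, div_zero, zero_pow hp0]⟩
  set G := aeval J g with hG
  set h : k[X] := f * g ^ (p - 1) with hh
  have hGp : G ^ p ≠ 0 := pow_ne_zero _ hg
  have hrew : aeval J f / G = aeval J h / G ^ p := by
    rw [hh, map_mul, map_pow, ← hG, div_eq_div_iff hg hGp]
    have : G ^ p = G ^ (p - 1) * G := by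
      rw [← pow_succ, Nat.sub_add_cancel (Fact.out : p.Prime).one_le]
    rw [this]; ring
  -- `θ (h(J)) = 0`
  have hθh : thetaL (aeval J h) = 0 := by
    rw [hrew, thetaL_div _ _ hGp, thetaL_pow_char k p G, mul_zero, sub_zero, div_eq_zero_iff] at hθ
    rcases hθ with hθ | hθ
    · exact (mul_eq_zero.mp hθ).resolve_right hGp
    · exact absurd hθ (pow_ne_zero _ hGp)
  -- hence `h' = 0`
  have hder : derivative h = 0 := by
    rw [thetaL_aeval] at hθh
    have h1 : aeval J (derivative h) = 0 :=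
      (mul_eq_zero.mp hθh).resolve_right (thetaL_jqModC_ne_zero k)
    have htr : Transcendental k J := transcendental_jqModC k
    exact (transcendental_iff_injective.mp htr) (by rw [h1, map_zero])
  -- `h` is a `p`-th power
  have hexp : expand k p (contract p h) = h := expand_contract p hder hp0
  set h1 : k[X] := (contract p h).map ((frobeniusEquiv k p).symm : k →+* k) with hh1
  have hh1p : h1 ^ p = h := by
    rw [← map_frobenius_expand, map_expand, hh1, Polynomial.map_map]
    have : (frobenius k p).comp ((frobeniusEquiv k p).symm : k →+* k) = RingHom.id k := by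
      ext x
      simp
    rw [this, Polynomial.map_id, hexp]
  refine ⟨aeval J h1 / G, div_mem (aeval_mem_adjoin k h1) (aeval_mem_adjoin k g), ?_⟩
  rw [div_pow, ← map_pow, hh1p, hrew]

/-! ## Separability of algebraic elements of `k((q))` over `k(J)` -/

/-- Characteristic `p`, `k` perfect: every `y ∈ k((q))` algebraic over `k(J)` is separable over
`k(J)`. -/
theorem isSeparable_of_isAlgebraic_char (p : ℕ) [Fact p.Prime] [CharP k p] [PerfectRing k p]
    {y : LaurentSeries k} (hy : IsAlgebraic ↥(k⟮jqModC k⟯) y) :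
    IsSeparable ↥(k⟮jqModC k⟯) y := by
  classical
  have hp0 : p ≠ 0 := (Fact.out : p.Prime).ne_zero
  have hp1 : p ≠ 1 := (Fact.out : p.Prime).ne_one
  haveI : CharP ↥(k⟮jqModC k⟯) p :=
    charP_of_injective_algebraMap (algebraMap k ↥(k⟮jqModC k⟯)).injective p
  have hint : IsIntegral ↥(k⟮jqModC k⟯) y := hy.isIntegral
  set P := minpoly ↥(k⟮jqModC k⟯) y with hP
  have hirr : Irreducible P := minpoly.irreducible hint
  have hmonic : P.Monic := minpoly.monic hint
  unfold IsSeparable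
  rw [← hP]
  by_contra hsep
  have hder : derivative P = 0 := by
    by_contra h
    exact hsep ((separable_iff_derivative_ne_zero hirr).mpr h)
  set n := P.natDegree with hn
  -- coefficientwise: `a_i * i = 0`
  have hcoeff : ∀ i : ℕ, ((P.coeff i : ↥(k⟮jqModC k⟯)) : LaurentSeries k) * (i : LaurentSeries k)
      = 0 := by
    intro i
    rcases i with _ | i
    · simp
    · have h1 := congrArg (fun Q => Q.coeff i) hder
      simp only [coeff_derivative, Polynomial.coeff_zero] at h1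
      have h2 := congrArg (fun e : ↥(k⟮jqModC k⟯) => (e : LaurentSeries k)) h1
      simpa using h2
  -- `P(y) = 0`, written as a sum in `k((q))`
  have h0 : ∑ i ∈ Finset.range (n + 1),
      ((P.coeff i : ↥(k⟮jqModC k⟯)) : LaurentSeries k) * y ^ i = 0 := by
    have h := minpoly.aeval ↥(k⟮jqModC k⟯) y
    rw [← hP, aeval_eq_sum_range] at h
    rw [← h]
    refine Finset.sum_congr rfl fun i _ => ?_
    rw [Algebra.smul_def]
    rfl
  -- apply `θ`
  have h1 : ∑ i ∈ Finset.range (n + 1),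
      thetaL ((P.coeff i : ↥(k⟮jqModC k⟯)) : LaurentSeries k) * y ^ i = 0 := by
    have h := congrArg thetaL h0
    rw [thetaL_sum, thetaL_zero] at h
    rw [← h]
    refine Finset.sum_congr rfl fun i _ => ?_
    rw [thetaL_mul, thetaL_pow']
    linear_combination (-(y ^ (i - 1) * thetaL y)) * hcoeff i
  have htop : thetaL ((P.coeff n : ↥(k⟮jqModC k⟯)) : LaurentSeries k) = 0 := by
    have : P.coeff n = 1 := hmonic
    rw [this]
    exact thetaL_one
  rw [Finset.sum_range_succ, htop, zero_mul, add_zero] at h1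
  -- `θ a_i = b_i θ J`
  have hb : ∀ i : ℕ, ∃ b : ↥(k⟮jqModC k⟯),
      thetaL ((P.coeff i : ↥(k⟮jqModC k⟯)) : LaurentSeries k) =
        (b : LaurentSeries k) * thetaL (jqModC k) := by
    intro i
    obtain ⟨b, hbm, hbθ⟩ := thetaL_mem_adjoin k (P.coeff i).2
    exact ⟨⟨b, hbm⟩, hbθ⟩
  choose b hbθ using hb
  set Q : Polynomial ↥(k⟮jqModC k⟯) := ∑ i ∈ Finset.range n, Polynomial.C (b i) * X ^ i with hQ
  have hQcoeff : ∀ m : ℕ, Q.coeff m = if m < n then b m else 0 := by
    intro m
    rw [hQ, finsetSum_coeff]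
    simp only [coeff_C_mul_X_pow]
    rw [Finset.sum_ite_eq (Finset.range n) m]
    simp only [Finset.mem_range]
  have hQy : aeval y Q = 0 := by
    have h2 : (aeval y Q) * thetaL (jqModC k) = 0 := by
      rw [← h1, hQ, map_sum, Finset.sum_mul]
      refine Finset.sum_congr rfl fun i _ => ?_
      rw [map_mul, aeval_C, map_pow, aeval_X, hbθ i]
      have : algebraMap ↥(k⟮jqModC k⟯) (LaurentSeries k) (b i) = (b i : LaurentSeries k) := rfl
      rw [this]
      ring
    exact (mul_eq_zero.mp h2).resolve_right (thetaL_jqModC_ne_zero k)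
  have hQ0 : Q = 0 := by
    by_contra hne
    have hle := minpoly.degree_le_of_ne_zero ↥(k⟮jqModC k⟯) y hne hQy
    have hlt : Q.degree < n := by
      rw [degree_lt_iff_coeff_zero]
      intro m hm
      rw [hQcoeff, if_neg (not_lt.mpr hm)]
    rw [← hP, degree_eq_natDegree hmonic.ne_zero, ← hn] at hle
    exact absurd hlt (not_lt.mpr hle)
  have hθcoeff : ∀ i : ℕ, thetaL ((P.coeff i : ↥(k⟮jqModC k⟯)) : LaurentSeries k) = 0 := by
    intro i
    rcases lt_trichotomy i n with hi | hi | hi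
    · have hbi : b i = 0 := by
        have := hQcoeff i
        rw [if_pos hi, hQ0, Polynomial.coeff_zero] at this
        exact this.symm
      rw [hbθ i, hbi]
      simp
    · rw [hi]; exact htop
    · rw [coeff_eq_zero_of_natDegree_lt hi]
      exact thetaL_zero
  -- every coefficient is a `p`-th power in `k(J)`
  have hpow : ∀ i : ℕ, ∃ c : ↥(k⟮jqModC k⟯), c ^ p = P.coeff i := by
    intro i
    obtain ⟨c, hcm, hc⟩ := exists_pow_eq_of_thetaL_eq_zero k p (P.coeff i).2 (hθcoeff i)
    exact ⟨⟨c, hcm⟩, Subtype.ext hc⟩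
  have hexp : expand ↥(k⟮jqModC k⟯) p (contract p P) = P := expand_contract p hder hp0
  have hrange : contract p P ∈ (mapRingHom (frobenius ↥(k⟮jqModC k⟯) p)).range := by
    rw [mem_map_range]
    intro j
    rw [coeff_contract hp0]
    obtain ⟨c, hc⟩ := hpow (j * p)
    exact ⟨c, by rw [frobenius_def, hc]⟩
  obtain ⟨R, hR⟩ := hrange
  have hRp : R ^ p = P := by
    rw [← map_frobenius_expand, map_expand]
    have : map (frobenius ↥(k⟮jqModC k⟯) p) R = contract p P := hR
    rw [this, hexp]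
  rw [← hRp] at hirr
  exact not_irreducible_pow hp1 hirr

/-- `k` perfect (any characteristic): every `y ∈ k((q))` algebraic over `k(J)` is separable over
`k(J)`. -/
theorem isSeparable_of_isAlgebraic [PerfectField k] {y : LaurentSeries k}
    (hy : IsAlgebraic ↥(k⟮jqModC k⟯) y) : IsSeparable ↥(k⟮jqModC k⟯) y := by
  obtain ⟨p, hp⟩ := ExpChar.exists k
  rcases hp with _ | ⟨hprime⟩
  · -- characteristic zero
    haveI : CharZero ↥(k⟮jqModC k⟯) :=
      charZero_of_injective_algebraMap (algebraMap k ↥(k⟮jqModC k⟯)).injective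
    exact (minpoly.irreducible hy.isIntegral).separable
  · haveI : Fact p.Prime := ⟨hprime⟩
    haveI : ExpChar k p := ExpChar.prime hprime
    haveI : PerfectRing k p := PerfectField.toPerfectRing p
    exact isSeparable_of_isAlgebraic_char k p hy

/-! ## End shape: `F_k` is separable over `k(J)` -/

section Full

set_option synthInstance.maxHeartbeats 400000
set_option maxHeartbeats 1600000

variable (N : ℕ) [NeZero N]

local notation "Fk" => modularFunctionFieldFullC k N

/-- `J` as an element of `F_k` (reducible; definitionally the `jk k N` of `S18/B/FkBasics`). -/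
abbrev jFk : ↥(modularFunctionFieldFullC k N) := ⟨jqModC k, jqModC_mem_full k N⟩

local notation "jk" => jFk k N

theorem adjoin_le_full : k⟮jqModC k⟯ ≤ Fk :=
  adjoin_simple_le_iff.mpr (jqModC_mem_full k N)

theorem coe_mem_adjoin (x : ↥(k⟮jk⟯)) : ((x : ↥Fk) : LaurentSeries k) ∈ k⟮jqModC k⟯ := by
  have h := (mem_lift (E := k⟮jk⟯) (x : ↥Fk)).mpr x.2
  rwa [lift_adjoin_simple] at h

theorem mem_adjoin_of_coe_mem (z : ↥Fk) (hz : (z : LaurentSeries k) ∈ k⟮jqModC k⟯) :
    z ∈ k⟮jk⟯ := by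
  have h : (z : LaurentSeries k) ∈ lift (k⟮jk⟯) := by
    rwa [lift_adjoin_simple]
  exact (mem_lift (E := k⟮jk⟯) z).mp h

/-- forward map of `adjoinEquiv` -/
def adjoinTo (x : ↥(k⟮jk⟯)) : ↥(k⟮jqModC k⟯) :=
  ⟨((x : ↥Fk) : LaurentSeries k), coe_mem_adjoin k N x⟩

/-- backward map of `adjoinEquiv` -/
def adjoinInv (z : ↥(k⟮jqModC k⟯)) : ↥(k⟮jk⟯) :=
  ⟨⟨(z : LaurentSeries k), adjoin_le_full k N z.2⟩,
    mem_adjoin_of_coe_mem k N ⟨(z : LaurentSeries k), adjoin_le_full k N z.2⟩ z.2⟩

theorem adjoinInv_adjoinTo (x : ↥(k⟮jk⟯)) : adjoinInv k N (adjoinTo k N x) = x := by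
  apply Subtype.ext
  apply Subtype.ext
  unfold adjoinInv adjoinTo
  rfl

theorem adjoinTo_adjoinInv (z : ↥(k⟮jqModC k⟯)) : adjoinTo k N (adjoinInv k N z) = z := by
  apply Subtype.ext
  unfold adjoinInv adjoinTo
  rfl

theorem adjoinTo_mul (x y : ↥(k⟮jk⟯)) :
    adjoinTo k N (x * y) = adjoinTo k N x * adjoinTo k N y := rfl

theorem adjoinTo_add (x y : ↥(k⟮jk⟯)) :
    adjoinTo k N (x + y) = adjoinTo k N x + adjoinTo k N y := rfl

/-- The identification of `k(J)` inside `F_k` with `k(J)` inside `k((q))`. -/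
def adjoinEquiv : ↥(k⟮jk⟯) ≃+* ↥(k⟮jqModC k⟯) where
  toFun := adjoinTo k N
  invFun := adjoinInv k N
  left_inv := adjoinInv_adjoinTo k N
  right_inv := adjoinTo_adjoinInv k N
  map_mul' := adjoinTo_mul k N
  map_add' := adjoinTo_add k N

theorem coe_adjoinEquiv (x : ↥(k⟮jk⟯)) :
    ((adjoinEquiv k N x : ↥(k⟮jqModC k⟯)) : LaurentSeries k) =
      ((x : ↥Fk) : LaurentSeries k) := by
  show ((adjoinTo k N x : ↥(k⟮jqModC k⟯)) : LaurentSeries k) = _
  unfold adjoinTo
  rfl

theorem algebraMap_comp_adjoinEquiv :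
    (algebraMap ↥(k⟮jqModC k⟯) (LaurentSeries k)).comp
        ((adjoinEquiv k N : ↥(k⟮jk⟯) ≃+* ↥(k⟮jqModC k⟯)) : ↥(k⟮jk⟯) →+* ↥(k⟮jqModC k⟯)) =
      ((Fk).val : ↥Fk →+* LaurentSeries k).comp (algebraMap ↥(k⟮jk⟯) ↥Fk) := by
  refine RingHom.ext fun x => ?_
  simp only [RingHom.comp_apply, RingHom.coe_coe]
  rw [IntermediateField.algebraMap_apply, IntermediateField.algebraMap_apply, coe_adjoinEquiv]
  rfl

/-- Elements of `F_k`, viewed in `k((q))`, are algebraic over `k(J)` if `F_k / k(J)` is algebraic. -/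
theorem isAlgebraic_coe [Algebra.IsAlgebraic ↥(k⟮jk⟯) ↥Fk] (y : ↥Fk) :
    IsAlgebraic ↥(k⟮jqModC k⟯) (y : LaurentSeries k) :=
  (Algebra.IsAlgebraic.isAlgebraic (R := ↥(k⟮jk⟯)) y).ringHom_of_comp_eq
    ((adjoinEquiv k N : ↥(k⟮jk⟯) ≃+* ↥(k⟮jqModC k⟯)) : ↥(k⟮jk⟯) →+* ↥(k⟮jqModC k⟯))
    ((Fk).val : ↥Fk →+* LaurentSeries k) (adjoinEquiv k N).injective
    (algebraMap_comp_adjoinEquiv k N)

/-- **End shape of H-B3.** For a perfect field `k`: if `F_k = k(J(q^d) : d ∣ N)` is algebraic over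
`k(J)`, then it is separable over `k(J)`. -/
theorem isSeparable_full [PerfectField k] [Algebra.IsAlgebraic ↥(k⟮jk⟯) ↥Fk] :
    Algebra.IsSeparable ↥(k⟮jk⟯) ↥Fk := by
  refine ⟨fun y => ?_⟩
  have hsep : IsSeparable ↥(k⟮jqModC k⟯) (y : LaurentSeries k) :=
    isSeparable_of_isAlgebraic k (isAlgebraic_coe k N y)
  -- transport the minimal polynomial along `adjoinEquiv`
  set e := adjoinEquiv k N with he
  set P := minpoly ↥(k⟮jk⟯) y with hP
  have hint : IsIntegral ↥(k⟮jk⟯) y := (Algebra.IsAlgebraic.isAlgebraic y).isIntegral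
  have hmonic : (P.map (e : ↥(k⟮jk⟯) →+* ↥(k⟮jqModC k⟯))).Monic := (minpoly.monic hint).map _
  have hroot : aeval (y : LaurentSeries k) (P.map (e : ↥(k⟮jk⟯) →+* ↥(k⟮jqModC k⟯))) = 0 := by
    rw [aeval_def, eval₂_map, algebraMap_comp_adjoinEquiv]
    have h1 : eval₂ (((Fk).val : ↥Fk →+* LaurentSeries k).comp (algebraMap ↥(k⟮jk⟯) ↥Fk))
        (((Fk).val : ↥Fk →+* LaurentSeries k) y) P =
        ((Fk).val : ↥Fk →+* LaurentSeries k) (eval₂ (algebraMap ↥(k⟮jk⟯) ↥Fk) y P) :=
      (hom_eval₂ P (algebraMap ↥(k⟮jk⟯) ↥Fk) ((Fk).val : ↥Fk →+* LaurentSeries k) y).symm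
    have h2 : eval₂ (algebraMap ↥(k⟮jk⟯) ↥Fk) y P = 0 := minpoly.aeval ↥(k⟮jk⟯) y
    rw [h2, map_zero] at h1
    exact h1
  have hdvd : minpoly ↥(k⟮jqModC k⟯) (y : LaurentSeries k) ∣
      P.map (e : ↥(k⟮jk⟯) →+* ↥(k⟮jqModC k⟯)) := minpoly.dvd _ _ hroot
  -- `P.map e` is irreducible, hence equal to the minimal polynomial over `k(J)`
  have hirr : Irreducible (P.map (e : ↥(k⟮jk⟯) →+* ↥(k⟮jqModC k⟯))) := by
    have h := (MulEquiv.irreducible_iff (Polynomial.mapEquiv (e : ↥(k⟮jk⟯) ≃+* ↥(k⟮jqModC k⟯)))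
      (x := P)).mpr (minpoly.irreducible hint)
    exact h
  have heq : P.map (e : ↥(k⟮jk⟯) →+* ↥(k⟮jqModC k⟯)) =
      minpoly ↥(k⟮jqModC k⟯) (y : LaurentSeries k) :=
    minpoly.eq_of_irreducible_of_monic hirr hroot hmonic
  unfold IsSeparable at hsep ⊢
  rw [← heq] at hsep
  exact (separable_map (e : ↥(k⟮jk⟯) →+* ↥(k⟮jqModC k⟯))).mp hsep

end Full

end Fermat.Agent.S18.B.Separable
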